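import Fermat.Agent.S48.M.KL.FldIF
import Fermat.Agent.S18.Descent
import Fermat.Agent.ES.AlgOrdAux
import Fermat.Prelude.Def_AlgebraicCurve_Correspondence

/-!
# S48 / M / KL : descent of (KL) from a level `L'` to a level `L`, `F_L ⊆ F_L'`   (port of `S18/Descent.lean`; helper27)

If `u ∈ F_L'`, `u ^ p ∈ F_L`, `p` prime not dividing `[SL₂(ℤ) : L'.Γ] / [SL₂(ℤ) : L.Γ]`, then `u ∈ F_L`.
-/

set_option autoImplicit false
set_option synthInstance.maxHeartbeats 400000

open ModularCurve IntermediateField Polynomial AlgebraicCurve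
open scoped MatrixGroups

noncomputable section

namespace Fermat.Agent.S48.M.KLL

open Fermat.Agent.S24 Fermat.Agent.S18

/-- `j` as a Laurent series over `Kb` -/
def jS : LaurentSeries Kb := coeffEmb Kb jq

theorem relfinrank_j (L : Lvl) : relfinrank Kb⟮jS⟯ (barL L) = Nat.card (QL L) := by
  rw [← finrank_FL L, ← relfinrank_top_right,
    ← relfinrank_map_map _ _ (barL L).val, adjoin_map, Set.image_singleton,
    ← AlgHom.fieldRange_eq_map, fieldRange_val]
  rfl

theorem adjoin_j_le (L : Lvl) : Kb⟮jS⟯ ≤ barL L := by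
  rw [adjoin_simple_le_iff]
  exact (jL L).2

theorem relfinrank_mul {L L' : Lvl} (h : barL L ≤ barL L') :
    Nat.card (QL L) * relfinrank (barL L) (barL L') = Nat.card (QL L') := by
  rw [← relfinrank_j L, ← relfinrank_j L']
  exact relfinrank_mul_relfinrank (adjoin_j_le L) h

theorem card_QL_pos (L : Lvl) : 0 < Nat.card (QL L) := by
  have := finite_QL L
  exact Nat.card_pos

theorem mem_of_pow_mem {L L' : Lvl} (hle : barL L ≤ barL L') {p : ℕ} (hp : p.Prime)
    (c : ℕ) (hc : Nat.card (QL L') = c * Nat.card (QL L)) (hpc : ¬ p ∣ c)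
    {u : LaurentSeries Kb} (hu : u ∈ barL L') (hup : u ^ p ∈ barL L) : u ∈ barL L := by
  set FN' := barL L with hFN
  set FM' := barL L' with hFM
  have hN0 : 0 < Nat.card (QL L) := card_QL_pos L
  have hrel : relfinrank FN' FM' = c := by
    have h1 := relfinrank_mul hle
    rw [hc, mul_comm] at h1
    exact Nat.eq_of_mul_eq_mul_right hN0 h1
  have hc0 : c ≠ 0 := by
    rintro rfl
    exact hpc (dvd_zero p)
  rw [relfinrank_eq_finrank_of_le hle] at hrel
  have hfd : FiniteDimensional FN' (extendScalars hle) :=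
    Module.finite_of_finrank_pos (by rw [hrel]; exact Nat.pos_of_ne_zero hc0)
  by_cases hirr : ∀ b : FN', b ^ p ≠ ⟨u ^ p, hup⟩
  · exfalso
    have h1 : Irreducible (X ^ p - C (⟨u ^ p, hup⟩ : FN')) :=
      X_pow_sub_C_irreducible_of_prime hp hirr
    let x : extendScalars hle := ⟨u, hu⟩
    have h2 : aeval x (X ^ p - C (⟨u ^ p, hup⟩ : FN')) = 0 := by
      apply Subtype.ext
      simp only [map_sub, map_pow, aeval_X, aeval_C]
      show u ^ p - u ^ p = 0
      exact sub_self _
    have h3 := minpoly.eq_of_irreducible_of_monic h1 h2 (monic_X_pow_sub_C _ hp.ne_zero)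
    have h4 := minpoly.degree_dvd (K := FN') (x := x) (Algebra.IsIntegral.isIntegral x)
    rw [← h3, natDegree_X_pow_sub_C, hrel] at h4
    exact hpc h4
  · push Not at hirr
    obtain ⟨b, hb⟩ := hirr
    have hb' : (b : LaurentSeries Kb) ^ p = u ^ p := congrArg Subtype.val hb
    by_cases hb0 : (b : LaurentSeries Kb) = 0
    · rw [hb0, zero_pow hp.ne_zero] at hb'
      have : u = 0 := pow_eq_zero_iff hp.ne_zero |>.mp hb'.symm
      rw [this]
      exact FN'.zero_mem
    · have h1 : (u / (b : LaurentSeries Kb)) ^ p = 1 := by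
        rw [div_pow, hb', div_self]
        rw [← hb']
        exact pow_ne_zero _ hb0
      have h2 := Descent.mem_of_pow_eq_one FN' hp.pos h1
      have h3 : u = u / (b : LaurentSeries Kb) * b := by field_simp
      rw [h3]
      exact FN'.mul_mem h2 b.2

/-- pull-back of divisors along `F_L ⊆ F_L'` -/
theorem dvd_ord_of_le {L L' : Lvl} (hle : barL L ≤ barL L') {p : ℕ} (f : FL L)
    (hdiv : ∀ P : Place Kb (FL L), (p : ℤ) ∣ P.ord f) (P : Place Kb (FL L')) :
    (p : ℤ) ∣ P.ord (⟨f, hle f.2⟩ : FL L') := by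
  let β : FL L →ₐ[Kb] FL L' := IntermediateField.inclusion hle
  let _ := algebraAlong β
  have := isScalarTower_along β
  have hβj : β (jL L) = jL L' := rfl
  have hint : β.toRingHom.IsIntegral :=
    ES.Alg.OrdAux.isIntegral_of_transcendental β (jL L) (by
      rw [hβj]; exact finiteDimensional_FL L')
  have := isIntegral_along β hint
  have h1 := P.ord_restrict (F := FL L) f
  have h2 : algebraMap (FL L) (FL L') f = (⟨f, hle f.2⟩ : FL L') := rfl
  rw [← h2, h1]
  exact Dvd.dvd.mul_left (hdiv _) _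

/-- descent of (KL), one prime `p` at a time -/
theorem kl_descent {L L' : Lvl} (hle : barL L ≤ barL L') {ℓ : ℕ} {A : ValuationSubring Kb}
    (hKL : KLStatementL L' ℓ A) {p : ℕ} (hp : p.Prime) (hpl : p ≠ ℓ)
    (c : ℕ) (hc : Nat.card (QL L') = c * Nat.card (QL L)) (hpc : ¬ p ∣ c)
    (f : FL L) (hf : f ≠ 0) (hdiv : ∀ P : Place Kb (FL L), (p : ℤ) ∣ P.ord f)
    (hcong : CongL L A f) : ∃ g : FL L, g ^ p = f := by
  obtain ⟨y1, y2, hy1m, hy2m, hmul, hred, hy2⟩ := hcong
  have hf' : (⟨f, hle f.2⟩ : FL L') ≠ 0 := by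
    intro h
    apply hf
    have h1 : (((⟨f, hle f.2⟩ : FL L') : LaurentSeries Kb)) = 0 :=
      ZeroMemClass.coe_eq_zero.mpr h
    exact ZeroMemClass.coe_eq_zero.mp h1
  obtain ⟨g, hg⟩ := hKL p hp hpl (⟨f, hle f.2⟩ : FL L') hf' (dvd_ord_of_le hle f hdiv)
    ⟨y1, y2, hle hy1m, hle hy2m, hmul, hred, hy2⟩
  have hg' : (g : LaurentSeries Kb) ^ p = (f : LaurentSeries Kb) := by
    rw [← IntermediateField.coe_pow, hg]
  have hgN : (g : LaurentSeries Kb) ∈ barL L :=
    mem_of_pow_mem hle hp c hc hpc g.2 (by rw [hg']; exact f.2)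
  refine ⟨⟨g, hgN⟩, Subtype.ext ?_⟩
  rw [IntermediateField.coe_pow]
  exact hg'

end Fermat.Agent.S48.M.KLL
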