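import Fermat.Agent.S48.M.G1
import Fermat.Agent.S20.CountIndex

/-!
# S48 / M / KL : the index of `GG M r` in `GG M 1`   [key S48/M-KL-IDX]

RECIPE (copy of `S20/CountIndex.lean`, `relIndex_Gamma0_mul_prime`, `index_Gamma0_mul_prime`): `GG M r ≤ GG M 1`;
`Subgroup.relIndex_mul_index`; `S20.Count.card_quotient_eq_card_range` with the invariant
`fun g : GG M 1 => S20.Count.relInv M r ⟨g, _⟩` (`GG M 1 ≤ Gamma0 M`), `S20.Count.relInv_eq_iff` (for `x y ∈ GG M 1`: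
`x⁻¹ y ∈ GG M r ↔ x⁻¹ y ∈ Gamma0 (M r)`); the range is everything: `some t` is the invariant of `[1 0; M t 1]`, `none` the one of
`[a b; M d]` with `a ≡ 1 (M)`, `a ≡ 0 (r)` (CRT; then `a d ≡ 1 (M)`, so `d ≡ 1 (M)`).
-/

set_option autoImplicit false

open CongruenceSubgroup
open scoped MatrixGroups

noncomputable section

namespace Fermat.Agent.S48.M.KLL

theorem idxAux_GG_le_Gamma0 (M : ℕ) : GG M 1 ≤ Gamma0 M := by
  intro g hg
  have := (mem_GG.1 hg).1
  rwa [mul_one] at this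

theorem idxAux_GG_le (M r : ℕ) : GG M r ≤ GG M 1 := by
  intro g hg
  obtain ⟨h1, h2⟩ := mem_GG.1 hg
  refine mem_GG.2 ⟨?_, h2⟩
  rw [mul_one]
  exact S20.Count.Gamma0_mul_le M r h1

/-- the invariant -/
def idxAux_inv (M r : ℕ) (g : GG M 1) : Option (ZMod r) :=
  S20.Count.relInv M r ⟨(g : SL(2, ℤ)), idxAux_GG_le_Gamma0 M g.2⟩

theorem idxAux_inv_eq_iff {M r : ℕ} [Fact r.Prime] (hM : 0 < M) (x y : GG M 1) :
    idxAux_inv M r x = idxAux_inv M r y ↔ x⁻¹ * y ∈ (GG M r).subgroupOf (GG M 1) := by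
  unfold idxAux_inv
  rw [S20.Count.relInv_eq_iff hM, Subgroup.mem_subgroupOf, Subgroup.mem_subgroupOf, mem_GG]
  constructor
  · intro h
    exact ⟨h, (mem_GG.1 (x⁻¹ * y).2).2⟩
  · intro h
    exact h.1

theorem idxAux_range {M r : ℕ} [Fact r.Prime] (hM : 0 < M) (hrM : ¬ r ∣ M) :
    Set.range (idxAux_inv M r) = Set.univ := by
  have hM' : (M : ℤ) ≠ 0 := by exact_mod_cast hM.ne'
  rw [Set.eq_univ_iff_forall]
  rintro (_ | t)
  · -- `a ≡ 1 (M)`, `a ≡ 0 (r)`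
    have hco : IsCoprime (r : ℤ) (M : ℤ) :=
      Nat.isCoprime_iff_coprime.mpr ((Nat.Prime.coprime_iff_not_dvd Fact.out).mpr hrM)
    obtain ⟨u, v, huv⟩ := hco
    -- a = u * r = 1 - v * M
    have hco2 : IsCoprime (u * (r : ℤ)) (M : ℤ) := ⟨1, v, by linarith⟩
    obtain ⟨g, hg0, hg1⟩ := S20.Count.exists_col hco2
    have hdet : (g 0 0 : ℤ) * g 1 1 - g 0 1 * g 1 0 = 1 := by
      have := g.det_coe
      rwa [Matrix.det_fin_two] at this
    have hgG : g ∈ GG M 1 := by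
      refine mem_GG.2 ⟨?_, Or.inl ?_⟩
      · rw [mul_one, S20.Count.Gamma0_mem_iff_dvd, hg1]
      · have h3 := congrArg (Int.cast : ℤ → ZMod M) hdet
        have h4 := congrArg (Int.cast : ℤ → ZMod M) huv
        rw [hg0, hg1] at h3
        push_cast at h3 h4
        simp only [CharP.cast_eq_zero, mul_zero, sub_zero, add_zero] at h3 h4
        rw [h4, one_mul] at h3
        exact h3
    refine ⟨⟨g, hgG⟩, ?_⟩
    unfold idxAux_inv S20.Count.relInv
    simp [hg0]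
  · have hgG : S20.Count.ofCol 1 ((M : ℤ) * (t.val : ℤ)) 1 0 (by ring) ∈ GG M 1 := by
      refine mem_GG.2 ⟨?_, Or.inl ?_⟩
      · rw [mul_one, S20.Count.Gamma0_mem_iff_dvd, S20.Count.ofCol_one_zero]; exact Dvd.intro _ rfl
      · simp [S20.Count.ofCol]
    refine ⟨⟨_, hgG⟩, ?_⟩
    unfold idxAux_inv S20.Count.relInv
    simp only [S20.Count.ofCol_zero_zero, S20.Count.ofCol_one_zero]
    rw [Int.mul_ediv_cancel_left _ hM']
    simp

theorem card_QL_lvG (M : ℕ) [NeZero M] {r : ℕ} [NeZero r] (hr : r.Prime) (hrM : ¬ r ∣ M) :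
    Nat.card (QL (lvG M r)) = (r + 1) * Nat.card (QL (lvG M 1)) := by
  have : Fact r.Prime := ⟨hr⟩
  have hM : 0 < M := Nat.pos_of_ne_zero (NeZero.ne M)
  have h1 : (GG M r).relIndex (GG M 1) = r + 1 := by
    rw [Subgroup.relIndex, Subgroup.index_eq_card,
      S20.Count.card_quotient_eq_card_range _ (idxAux_inv M r) (idxAux_inv_eq_iff hM),
      idxAux_range hM hrM, Nat.card_univ, Nat.card_eq_fintype_card, Fintype.card_option, ZMod.card]
  show Nat.card (SL(2, ℤ) ⧸ GG M r) = (r + 1) * Nat.card (SL(2, ℤ) ⧸ GG M 1)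
  rw [← Subgroup.index_eq_card, ← Subgroup.index_eq_card, ← h1,
    Subgroup.relIndex_mul_index (idxAux_GG_le M r)]

end Fermat.Agent.S48.M.KLL
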