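import Fermat.Agent.S48.M.KL.PrimF

/-!
# S48 / M / KL : the primitive element, invariance and separation   [key S48/M-KL-PS]

RECIPE (`n = M R`, `v₀ = ![0,1]`).
* `yA_neg`: `Subtype.ext`, function extensionality, `yA_apply`, `QE_neg`, `neg_eq_zero`.
* `vg_inv`: `(0,1) g⁻¹ = (-c, a)` (`Matrix.SpecialLinearGroup.SL2_inv_expl` / `Matrix.adjugate_fin_two`).
* `smul_thA_of_mem`: `g ∈ GG M R`: `smul_add`, `S28.smul_jA_of_mem_Gamma0`, `smul_yA`, `vg_inv`: `M ∣ c`, `a d ≡ 1`, `d ≡ ±1`, so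
  `(0,1) g⁻¹ = ±(0,1)`; `yA_neg`.
* `mem_of_red_thA`: `n = 1`: everything is in `GG 1 1` (`Subsingleton (ZMod 1)`).  `n > 1`: compare the coefficients of `q_n^(-n n)`:
  `-(n n) < -n`, so `coeff_eps_yA_of_lt` kills both `y`-terms (`smul_yA`); `S28.smul_jA_eq_or n g`: in the second case
  `0 = 1` as in `S28.rootOf_injective` (Key.lean:206, copy); in the first case `g ∈ Gamma0 n` (`S24.mem_Gamma0_of_holAct`) and
  `red (yA (vg v₀ g⁻¹)) = red (yA v₀)`; `yA_sep` with `g₀ = 1` gives `vg v₀ g⁻¹ = ± v₀`, i.e. `a ≡ ±1 (M)`, so `d ≡ ±1 (M)`.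
-/

set_option autoImplicit false

open UpperHalfPlane ModularForm ModularCurve CongruenceSubgroup
open scoped MatrixGroups Real

noncomputable section

namespace Fermat.Agent.S48.M.KLL

open Fermat.Agent.S24 Fermat.Agent.S28

variable (M R : ℕ) [NeZero M] [NeZero R]

theorem yA_neg (n : ℕ) [NeZero n] (hMn : M ∣ n) (v : Fin 2 → ZMod M) :
    yA M n hMn (-v) = yA M n hMn v := by
  apply Subtype.ext
  apply Subtype.ext
  funext τ
  rw [yA_apply, yA_apply, QE_neg]
  simp only [neg_eq_zero]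

theorem vg_inv (g : SL(2, ℤ)) :
    vg M ![0, 1] g⁻¹ = ![-((g 1 0 : ℤ) : ZMod M), ((g 0 0 : ℤ) : ZMod M)] := by
  rw [EisSL.vg_apply, Matrix.SpecialLinearGroup.SL2_inv_expl]
  simp

theorem primSAux_ad (g : SL(2, ℤ)) (hg : ((g 1 0 : ℤ) : ZMod M) = 0) :
    ((g 0 0 : ℤ) : ZMod M) * ((g 1 1 : ℤ) : ZMod M) = 1 := by
  have h1 := Matrix.SpecialLinearGroup.det_coe g
  rw [Matrix.det_fin_two] at h1
  have h2 := congrArg (Int.cast : ℤ → ZMod M) h1
  push_cast at h2
  rw [hg, mul_zero, sub_zero] at h2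
  exact h2

theorem primSAux_low {g : SL(2, ℤ)} (hg : g ∈ Gamma0 (M * R)) : ((g 1 0 : ℤ) : ZMod M) = 0 := by
  rw [Gamma0_mem, ZMod.intCast_zmod_eq_zero_iff_dvd] at hg
  rw [ZMod.intCast_zmod_eq_zero_iff_dvd]
  exact (Int.natCast_dvd_natCast.2 (dvd_mul_right M R)).trans hg

theorem smul_thA_of_mem (g : SL(2, ℤ)) (hg : g ∈ GG M R) : g • thA M R = thA M R := by
  obtain ⟨h0, h1⟩ := mem_GG.1 hg
  have hc := primSAux_low M R h0
  have had := primSAux_ad M g hc
  rw [thA, smul_add, smul_jA_of_mem_Gamma0 (M * R) h0, smul_yA, vg_inv, hc, neg_zero]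
  congr 1
  rcases h1 with h1 | h1
  · rw [h1, mul_one] at had
    rw [had]
  · rw [h1, mul_neg, mul_one, neg_eq_iff_eq_neg] at had
    rw [had, ← yA_neg]
    congr 1
    funext i
    fin_cases i <;> simp

theorem mem_of_red_thA {Fb : Type} [Field Fb] (φ : Zb →+* Fb)
    (hφ : ∀ s : ℕ, s.Prime → s ∣ M * R → φ (s : Zb) ≠ 0) (g : SL(2, ℤ))
    (h : red (M * R) φ (g • thA M R) = red (M * R) φ (thA M R)) : g ∈ GG M R := by
  have hn0 : 1 ≤ M * R := Nat.pos_of_ne_zero (NeZero.ne _)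
  rcases hn0.eq_or_lt with hn1 | hn1
  · have hM1 : M = 1 := Nat.eq_one_of_mul_eq_one_right hn1.symm
    have s1 : Subsingleton (ZMod (M * R)) := by rw [← hn1]; infer_instance
    have s2 : Subsingleton (ZMod M) := by rw [hM1]; infer_instance
    exact mem_GG.2 ⟨Gamma0_mem.2 (Subsingleton.elim _ _), Or.inl (Subsingleton.elim _ _)⟩
  have hlt : -(((M * R : ℕ) : ℤ) * ((M * R : ℕ) : ℤ)) < -((M * R : ℕ) : ℤ) := by
    have h1 : (1 : ℤ) < ((M * R : ℕ) : ℤ) := by exact_mod_cast hn1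
    nlinarith
  rw [thA, smul_add, smul_yA, map_add, map_add] at h
  have hj : g • jA (M * R) (M * R) dvd_rfl = jA (M * R) (M * R) dvd_rfl := by
    rcases smul_jA_eq_or (M * R) g with h3 | h3
    · exact h3
    · exfalso
      have h5 := congrArg (fun s => s.coeff (-(((M * R : ℕ) : ℤ) * ((M * R : ℕ) : ℤ)))) h
      simp only [HahnSeries.coeff_add, red_coeff, h3, map_zero,
        coeff_eps_yA_of_lt M (M * R) (dvd_mul_right M R) _ _ hlt, zero_add] at h5
      rw [← red_coeff, red_jA] at h5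
      have h6 : (qExpand Fb ((M * R) * (M * R)) (jqModC Fb)).coeff
          ((((M * R) * (M * R) : ℕ) : ℤ) * (-1)) = 1 := by
        rw [qExpand_coeff_mul, coeff_jqModC_neg_one]
      rw [show -(((M * R : ℕ) : ℤ) * ((M * R : ℕ) : ℤ)) = (((M * R) * (M * R) : ℕ) : ℤ) * (-1) by
        push_cast; ring, h6] at h5
      exact zero_ne_one h5
  have h0 : g ∈ Gamma0 (M * R) := mem_Gamma0_of_holAct (M * R) (congrArg Subtype.val hj)
  rw [hj, add_left_inj] at h
  have hc := primSAux_low M R h0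
  have had := primSAux_ad M g hc
  have hs := yA_sep M (M * R) (dvd_mul_right M R) φ hφ 1 (vg M ![0, 1] g⁻¹)
    (by rw [EisSL.vg_one]; exact h.symm)
  rw [EisSL.vg_one, vg_inv] at hs
  refine mem_GG.2 ⟨h0, ?_⟩
  rcases hs with hs | hs
  · have ha := congrFun hs 1
    simp only [Matrix.cons_val_one, Matrix.cons_val_fin_one] at ha
    rw [ha, one_mul] at had
    exact Or.inl had
  · have ha := congrFun hs 1
    simp only [Pi.neg_apply, Matrix.cons_val_one, Matrix.cons_val_fin_one] at ha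
    rw [ha, neg_mul, one_mul, neg_eq_iff_eq_neg] at had
    exact Or.inr had

end Fermat.Agent.S48.M.KLL
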