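import Fermat.Agent.S48.M.KL.CorrIota
import Fermat.Agent.S48.M.KL.PrimS

/-!
# S48 / M / KL : the primitive element of `FL (lvG M R)`   (helper27; uses the sub-layer EIS)

`θ = y_(0,1) + j(M R z)`, `y_(0,1) = M⁴ QE M (0,1) E₄² / Δ`.
-/

set_option autoImplicit false

open UpperHalfPlane ModularForm ModularCurve
open scoped MatrixGroups

noncomputable section

namespace Fermat.Agent.S48.M.KLL

open Fermat.Agent.S24 Fermat.Agent.S28 Fermat.Agent.S18

theorem exists_klDataG (M R : ℕ) [NeZero M] [NeZero R] (r : ℕ) (hr : r ∣ M * R) :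
    Nonempty (KLData (lvG M R) (M * R) r) := by
  obtain ⟨x, hx⟩ := exists_iotaL_thA M R
  exact ⟨{ hrn := hr
           le := fun g hg => (Int.natCast_dvd_natCast.mpr hr).trans
             ((ZMod.intCast_zmod_eq_zero_iff_dvd _ _).mp
               (CongruenceSubgroup.Gamma0_mem.mp (mem_GG.mp hg).1))
           θA := thA M R
           θF := x
           corr := corrL_of_iota hx
           inv := smul_thA_of_mem M R
           sep := fun φ hφ g h => mem_of_red_thA M R φ hφ g h }⟩

end Fermat.Agent.S48.M.KLL
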