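import Fermat.Agent.S48.M.KL.Level
import Fermat.Agent.S48.M.KL.Descent
import Fermat.Agent.S48.M.KL.Idx
import Fermat.Agent.S48.M.KL.Prim

/-!
# S48 / M / KL : (KL) for the level `lvG M 1`   (helper27)
-/

set_option autoImplicit false
set_option synthInstance.maxHeartbeats 400000

open ModularCurve AlgebraicCurve IntermediateField

noncomputable section

namespace Fermat.Agent.S48.M.KLL

open Fermat.Agent.S24 Fermat.Agent.S18 Fermat.Agent.S18.KLAllAux

theorem klG (M : ℕ) [NeZero M] {ℓ : ℕ} (hℓ : ℓ.Prime) (hℓM : ¬ ℓ ∣ M) (A : ValuationSubring Kb)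
    (hA : A.LiesOverPrime ℓ) : KLStatementL (lvG M 1) ℓ A := by
  intro p hp hpl f hf hdiv hcong
  obtain ⟨r, hr, hrl, hpr⟩ := exists_aux hpl
  have hrp : r.Prime := by rcases hr with rfl | rfl <;> norm_num
  have : NeZero r := ⟨hrp.ne_zero⟩
  by_cases hrM : r ∣ M
  · obtain ⟨D⟩ := exists_klDataG M 1 r (by simpa using hrM)
    exact kl_levelL D hr hℓ (by simpa using hℓM) A hA p hp hpl f hf hdiv hcong
  · obtain ⟨D⟩ := exists_klDataG M r r (dvd_mul_left r M)
    have hℓMr : ¬ ℓ ∣ M * r := by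
      intro h
      rcases (hℓ.dvd_mul).mp h with h1 | h1
      · exact hℓM h1
      · exact hrl ((Nat.prime_dvd_prime_iff_eq hℓ hrp).mp h1).symm
    have hKL := kl_levelL D hr hℓ hℓMr A hA
    exact kl_descent (barL_le M r) hKL hp hpl (r + 1) (card_QL_lvG M hrp hrM) (hpr hp) f hf hdiv
      hcong

end Fermat.Agent.S48.M.KLL
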