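import Fermat.Agent.S48.M.KL.Good

/-!
# S48 / M / KL : automorphisms of `FL L` over `Kb(t)` from the normaliser of `L.Γ` in `Γ₀(r)`   [key S48/M-KL-AUT]

RECIPE.
* `mem_VV_of_algHom` (generic fields): `x ∈ VV`: `S` primitive, `evE S * x ∈ C0`, i.e. a monic `p ∈ A[X][X]` with
  `eval₂ (evE A τ E) (evE S * x) p = 0`.  `δ (evE P) = evE P` (`evE = algebraMap Lf E ∘ evL`, `δ.commutes`), so apply `δ`
  (`Polynomial.hom_eval₂`).
* `exists_autL`: `g • θA` is `L.Γ`-invariant (`k • g • θ = g • (g⁻¹ k g) • θ`), so `D.exists_corr` gives `xg : FL L`,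
  `CorrL L M xg (g • D.θA)`.  `exists_chiL H D` gives the monic `p` over `LT H D` of degree `card X0` with `aeval θF p = 0` and
  coefficients corresponding to those of `chiA D`; `aeval xg p = 0` as in the last step of `exists_chiL`
  (`(chiA D).eval (g • θA) = g • (chiA D).eval θA = 0` by `chiA_map D hg` + `eval_chiA`; `Polynomial.eval₂_hom`/`hom_eval₂`).
  `minpoly (LT H D) θF = p` (`minpoly.dvd`, both monic, `natDegree_minpoly`; `Polynomial.eq_of_monic_of_dvd_of_natDegree_le`).
  Power basis `⟨θF, card X0, β, hβ⟩` from `exists_basis H D`; `δ = PowerBasis.lift`.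
  Compatibility with `iotaL`: the ring homs `iotaL ∘ δ` and `merAct g ∘ iotaL` agree on `LT H D` (`merAct_iota_LT H D hg`) and at
  `θF` (`D.corr.iota_eq`, `merAct_algebraMap`), and every `x` is `aeval θF f`, `f ∈ (LT H D)[X]` (`PowerBasis.exists_eq_aeval'`).
-/

set_option autoImplicit false
set_option synthInstance.maxHeartbeats 400000
set_option linter.unusedSectionVars false

open UpperHalfPlane ModularForm EisensteinSeries ModularCurve Polynomial IntermediateField
open scoped MatrixGroups Manifold Real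

noncomputable section

namespace Fermat.Agent.S48.M.KLL

open Fermat.Agent.S24 Fermat.Agent.S28 Fermat.Agent.S18

theorem mem_VV_of_algHom {K : Type*} [Field K] (A : ValuationSubring K) {Lf : Type*} [Field Lf]
    [Algebra K Lf] (τ : Lf) {E : Type*} [Field E] [Algebra Lf E] (δ : E →ₐ[Lf] E) {x : E}
    (hx : x ∈ KL.VV A τ E) : δ x ∈ KL.VV A τ E := by
  obtain ⟨S, hS, p, hp, hpx⟩ := hx
  have hev : ∀ P, δ (KL.evE A τ E P) = KL.evE A τ E P := fun P => by
    rw [KL.evE_apply]; exact δ.commutes _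
  refine ⟨S, hS, p, hp, ?_⟩
  have h1 := congrArg δ hpx
  rw [map_zero] at h1
  have h2 := Polynomial.hom_eval₂ p (KL.evE A τ E) (δ : E →+* E) (KL.evE A τ E S * x)
  have h3 : (δ : E →+* E).comp (KL.evE A τ E) = KL.evE A τ E := RingHom.ext hev
  rw [h3] at h2
  have h4 : (δ : E →+* E) (KL.evE A τ E S * x) = KL.evE A τ E S * δ x := by
    show δ (KL.evE A τ E S * x) = _
    rw [map_mul, hev]
  rw [h4] at h2
  rw [← h2]
  exact h1

variable {L : Lvl} {M r : ℕ} [NeZero M]

theorem eval_chiA_smul (D : KLData L M r) {g : SL(2, ℤ)} (hg : (r : ℤ) ∣ g 1 0) :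
    (chiA D).eval (g • D.θA) = 0 := by
  have h1 := Polynomial.hom_eval₂ (chiA D) (RingHom.id (AL M))
    (MulSemiringAction.toRingHom SL(2, ℤ) (AL M) g) D.θA
  rw [eval₂_id, eval_chiA D, map_zero, RingHom.comp_id, ← eval_map, chiA_map D hg] at h1
  exact h1.symm

theorem exists_autL (H : Haupt M r) (D : KLData L M r) (g : SL(2, ℤ)) (hgr : (r : ℤ) ∣ g 1 0)
    (hnorm : ∀ k ∈ L.Γ, g⁻¹ * k * g ∈ L.Γ) :
    ∃ δ : FL L →ₐ[LT H D] FL L, ∀ x, iotaL L (δ x) = merAct g (iotaL L x) := by
  have hfin := finiteDimensional_LT H D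
  -- the conjugate of the primitive element
  obtain ⟨xg, hxg⟩ := D.exists_corr (g • D.θA) (fun k hk => by
    have h1 : k * g = g * (g⁻¹ * k * g) := by group
    rw [← mul_smul, h1, mul_smul, D.inv _ (hnorm k hk)])
  obtain ⟨p, hp, hd, h0, hc⟩ := exists_chiL H D
  have hint : IsIntegral (LT H D) D.θF := IsIntegral.of_finite _ _
  have hmin : p = minpoly (LT H D) D.θF := by
    refine Polynomial.eq_of_monic_of_dvd_of_natDegree_le (minpoly.monic hint) hp
      (minpoly.dvd _ _ h0) ?_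
    rw [hd, natDegree_minpoly H D]
  have hroot : aeval xg p = 0 := by
    have h1 : CorrL L M (aeval xg p) ((chiA D).eval (g • D.θA)) := by
      rw [eval_eq_sum_range, natDegree_chiA, aeval_eq_sum_range, hd]
      refine CorrL.sum _ _ _ fun i _ => ?_
      rw [Algebra.smul_def]
      exact (hc i).mul (hxg.pow i)
    rw [eval_chiA_smul D hgr] at h1
    exact h1.eq_zero_iff.mpr rfl
  obtain ⟨β, hβ⟩ := exists_basis H D
  let pb : PowerBasis (LT H D) (FL L) := ⟨D.θF, _, β, hβ⟩
  have hgen : pb.gen = D.θF := rfl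
  let δ : FL L →ₐ[LT H D] FL L := pb.lift xg (by rw [hgen, ← hmin]; exact hroot)
  have hδ : δ D.θF = xg := pb.lift_gen xg _
  refine ⟨δ, fun x => ?_⟩
  obtain ⟨f, rfl⟩ := pb.exists_eq_aeval' x
  rw [hgen]
  have e1 : δ (aeval D.θF f) = aeval xg f := by rw [← aeval_algHom_apply, hδ]
  rw [e1, aeval_def, aeval_def, Polynomial.hom_eval₂]
  have e2 := Polynomial.hom_eval₂ f (algebraMap (LT H D) (FL L))
    ((merAct g).toRingHom.comp (iotaL L)) D.θF
  have e3 : merAct g (iotaL L (eval₂ (algebraMap (LT H D) (FL L)) D.θF f)) =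
      ((merAct g).toRingHom.comp (iotaL L)) (eval₂ (algebraMap (LT H D) (FL L)) D.θF f) := rfl
  rw [e3, e2]
  have e4 : ((merAct g).toRingHom.comp (iotaL L)).comp (algebraMap (LT H D) (FL L)) =
      (iotaL L).comp (algebraMap (LT H D) (FL L)) :=
    RingHom.ext fun a => merAct_iota_LT H D hgr a
  have e5 : ((merAct g).toRingHom.comp (iotaL L)) D.θF = iotaL L xg := by
    show merAct g (iotaL L D.θF) = _
    rw [D.corr.iota_eq, hxg.iota_eq, merAct_algebraMap]
    rfl
  rw [e4, e5]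

end Fermat.Agent.S48.M.KLL
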