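import Fermat.Agent.S48.M.KL.FldIF
import Fermat.Agent.S18.ModBridge

/-!
# S48 / M / KL : correspondence between `FL L` and `S28.AL n`   (port of `S18/ModBridge.lean`; helper27)

* `CorrL L n x f` : `x : FL L` and `f : AL n` are the same modular function;
* `KLData L n r` : the data needed for (KL) at the level `L` : `L.Γ ≤ Γ₀(r)`, and a primitive element `θ` of `FL L` which
  lies in `AL n`, with stabiliser `L.Γ`, whose conjugates stay distinct modulo every prime not dividing `n`;
* `KLData.exists_corr` : every `L.Γ`-invariant element of `AL n` comes from `FL L` (Lagrange interpolation).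
-/

set_option autoImplicit false

open UpperHalfPlane ModularForm EisensteinSeries ModularCurve Polynomial
open scoped MatrixGroups Manifold Real

noncomputable section

namespace Fermat.Agent.S48.M

open Fermat.Agent.S24 Fermat.Agent.S28 Fermat.Agent.S18

/-! ### correspondence between `FL L` and `AL n` -/

/-- `x : FL L` and `f : AL n` are the same modular function -/
structure CorrL (L : Lvl) (n : ℕ) [NeZero n] (x : FL L) (f : AL n) : Prop where
  iota_eq : iotaL L x = algebraMap Hol Mer f.1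
  qexp_eq : qExpand Kb n (x : LaurentSeries Kb) = coeffMap zk (eps n f)

variable {L : Lvl} {n : ℕ} [NeZero n]

theorem CorrL.add {x y : FL L} {f g : AL n} (h : CorrL L n x f) (h' : CorrL L n y g) :
    CorrL L n (x + y) (f + g) :=
  ⟨by rw [(iotaL L).map_add, h.iota_eq, h'.iota_eq, ← map_add]; rfl,
   by rw [map_add, map_add, ← h.qexp_eq, ← h'.qexp_eq, ← map_add]; rfl⟩

theorem CorrL.mul {x y : FL L} {f g : AL n} (h : CorrL L n x f) (h' : CorrL L n y g) :
    CorrL L n (x * y) (f * g) :=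
  ⟨by rw [(iotaL L).map_mul, h.iota_eq, h'.iota_eq, ← map_mul]; rfl,
   by rw [map_mul, map_mul, ← h.qexp_eq, ← h'.qexp_eq, ← map_mul]; rfl⟩

theorem CorrL.neg {x : FL L} {f : AL n} (h : CorrL L n x f) : CorrL L n (-x) (-f) :=
  ⟨by rw [(iotaL L).map_neg, h.iota_eq, ← map_neg]; rfl,
   by rw [map_neg, map_neg, ← h.qexp_eq, ← map_neg]; rfl⟩

theorem CorrL.sub {x y : FL L} {f g : AL n} (h : CorrL L n x f) (h' : CorrL L n y g) :
    CorrL L n (x - y) (f - g) := by
  rw [sub_eq_add_neg, sub_eq_add_neg]; exact h.add h'.neg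

theorem CorrL.const (c : Zb) : CorrL L n (algebraMap Kb (FL L) (zk c)) (cA n c) := by
  refine ⟨?_, ?_⟩
  · rw [iotaL_algebraMap, kappa_zk]
    exact IsScalarTower.algebraMap_apply ℂ Hol Mer _
  · rw [eps_cA]
    have h1 : ((algebraMap Kb (FL L) (zk c) : FL L) : LaurentSeries Kb) = HahnSeries.C (zk c) := by
      show algebraMap Kb (LaurentSeries Kb) (zk c) = _
      rw [P2MW.S_ModularCurve_coeff_jqModC_neg_one.ModularCurve.CharLRows.algebraMap_laurentSeries_eq_single]
      rfl
    rw [h1, qExpand_C]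
    show _ = coeffMap zk (HahnSeries.single 0 c)
    rw [coeffMap_single]
    rfl

theorem CorrL.one : CorrL L n (1 : FL L) (1 : AL n) := by
  have := CorrL.const (L := L) (n := n) 1
  simpa using this

theorem CorrL.zero : CorrL L n (0 : FL L) (0 : AL n) := by
  have := CorrL.const (L := L) (n := n) 0
  simpa using this

theorem CorrL.pow {x : FL L} {f : AL n} (h : CorrL L n x f) (k : ℕ) : CorrL L n (x ^ k) (f ^ k) := by
  induction k with
  | zero => simpa using CorrL.one
  | succ k ih => rw [pow_succ, pow_succ]; exact ih.mul h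

theorem CorrL.jL : CorrL L n (jL L) (jA n 1 (one_dvd n)) := by
  refine ⟨?_, ?_⟩
  · rw [iotaL_jL]
    show _ = algebraMap Hol Mer (jHd 1)
    rw [jHd_one]
  · rw [eps_jA, coeffMap_qExpand, coeffMap_jqModC]
    show qExpand Kb n (coeffEmb Kb jq) = _
    rw [coeffEmb, ← jqModC_rat, coeffMap_jqModC]
    have key : ∀ (m : ℕ) [NeZero m], m = n →
        qExpand Kb n (jqModC Kb) = qExpand Kb m (jqModC Kb) := by
      intro m _ hm
      subst hm
      rfl
    exact key _ (mul_one n)

theorem CorrL.sum {ι : Type*} (s : Finset ι) (x : ι → FL L) (f : ι → AL n)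
    (h : ∀ i ∈ s, CorrL L n (x i) (f i)) : CorrL L n (∑ i ∈ s, x i) (∑ i ∈ s, f i) := by
  classical
  induction s using Finset.induction_on with
  | empty => simpa using CorrL.zero
  | insert a s ha ih =>
    rw [Finset.sum_insert ha, Finset.sum_insert ha]
    exact (h a (Finset.mem_insert_self a s)).add
      (ih fun i hi => h i (Finset.mem_insert_of_mem hi))

theorem CorrL.eval₂ {x : FL L} {f : AL n} (h : CorrL L n x f) (P : Zb[X]) :
    CorrL L n (aeval x (P.map zk)) (P.eval₂ (cA n) f) := by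
  rw [aeval_def, eval₂_map, eval₂_eq_sum_range, eval₂_eq_sum_range]
  exact CorrL.sum _ _ _ fun i _ => (CorrL.const _).mul (h.pow i)

theorem CorrL.unique_left {x y : FL L} {f : AL n} (h : CorrL L n x f) (h' : CorrL L n y f) : x = y :=
  (iotaL L).injective (by rw [h.iota_eq, h'.iota_eq])

theorem CorrL.unique_right {x : FL L} {f g : AL n} (h : CorrL L n x f) (h' : CorrL L n x g) : f = g :=
  Subtype.ext (IsFractionRing.injective Hol Mer (by rw [← h.iota_eq, ← h'.iota_eq]))

theorem CorrL.eq_zero_iff {x : FL L} {f : AL n} (h : CorrL L n x f) : x = 0 ↔ f = 0 :=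
  ⟨fun h0 => (h0 ▸ h).unique_right CorrL.zero, fun h0 => (h0 ▸ h).unique_left CorrL.zero⟩

theorem CorrL.div {x y : FL L} {f g k : AL n} (h : CorrL L n x f) (h' : CorrL L n y g) (hg : g ≠ 0)
    (hk : k * g = f) : CorrL L n (x / y) k := by
  have hy : y ≠ 0 := fun h0 => hg (h'.eq_zero_iff.mp h0)
  refine ⟨?_, ?_⟩
  · rw [map_div₀, h.iota_eq, h'.iota_eq, ← hk]
    have h1 : algebraMap Hol Mer g.1 ≠ 0 := by
      rw [← h'.iota_eq]; exact (_root_.map_ne_zero (iotaL L)).mpr hy
    rw [div_eq_iff h1, ← map_mul]; rfl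
  · have h1 : qExpand Kb n (y : LaurentSeries Kb) ≠ 0 := by
      rw [Ne, map_eq_zero_iff _ (qExpand_injective n)]
      exact fun h0 => hy (Subtype.ext h0)
    apply mul_right_cancel₀ h1
    rw [← map_mul]
    have h2 : ((x / y : FL L) : LaurentSeries Kb) * (y : LaurentSeries Kb) = x := by
      have : x / y * y = x := div_mul_cancel₀ x hy
      exact congrArg Subtype.val this
    rw [h2, h.qexp_eq, h'.qexp_eq, ← map_mul, ← map_mul, hk]

theorem CorrL.sigma {x : FL L} {f : AL n} (h : CorrL L n x f) (g : SL(2, ℤ)) :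
    sigmaL L (g : QL L) x = algebraMap Hol Mer (g • f : AL n).1 := by
  rw [sigmaL_mk, h.iota_eq, merAct_algebraMap]
  rfl


/-- the data for (KL) at the level `L` -/
structure KLData (L : Lvl) (n r : ℕ) [NeZero n] where
  hrn : r ∣ n
  le : ∀ g ∈ L.Γ, (r : ℤ) ∣ g 1 0
  θA : AL n
  θF : FL L
  corr : CorrL L n θF θA
  inv : ∀ g ∈ L.Γ, g • θA = θA
  sep : ∀ {Fb : Type} [Field Fb] (φ : Zb →+* Fb), (∀ s : ℕ, s.Prime → s ∣ n → φ (s : Zb) ≠ 0) →
    ∀ g : SL(2, ℤ), red n φ (g • θA) = red n φ θA → g ∈ L.Γ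

theorem KLData.mem_of_smul_eq {r : ℕ} (D : KLData L n r) {g : SL(2, ℤ)} (h : g • D.θA = D.θA) :
    g ∈ L.Γ :=
  D.sep (algebraMap Zb ℂ) (fun s hs _ => by
    rw [map_natCast]
    exact_mod_cast hs.ne_zero) g (by rw [h])

theorem exists_corrL_of_invariant (c : AL n) (hc : ∀ g : SL(2, ℤ), g • c = c) :
    ∃ x : FL L, CorrL L n x c := by
  obtain ⟨P, hP⟩ := exists_poly_of_invariant n c hc
  exact ⟨_, hP ▸ (CorrL.jL).eval₂ P⟩

theorem exists_corrL_eval (Q : (AL n)[X]) (hQ : ∀ k, ∃ x : FL L, CorrL L n x (Q.coeff k)) {y : FL L}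
    {f : AL n} (h : CorrL L n y f) : ∃ x : FL L, CorrL L n x (Q.eval f) := by
  choose c hc using hQ
  rw [eval_eq_sum_range]
  exact ⟨_, CorrL.sum _ (fun i => c i * y ^ i) _ fun i _ => (hc i).mul (h.pow i)⟩

theorem KLData.exists_corr {r : ℕ} (D : KLData L n r) (f : AL n) (hf : ∀ g ∈ L.Γ, g • f = f) :
    ∃ x : FL L, CorrL L n x f := by
  classical
  have : Finite (QL L) := finite_QL L
  have : Fintype (QL L) := Fintype.ofFinite _
  have hx : ∀ k ∈ L.Γ, k • D.θA = D.θA := D.inv
  have h1 : ∀ k ∈ L.Γ, k • (1 : AL n) = 1 := fun k _ => smul_one k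
  obtain ⟨X, hX⟩ := exists_corrL_eval (L := L) (Lag.lag _ f _ hf hx)
    (fun k => exists_corrL_of_invariant _ (Lag.smul_coeff_lag _ f _ hf hx k)) D.corr
  obtain ⟨Y, hY⟩ := exists_corrL_eval (L := L) (Lag.lag _ 1 _ h1 hx)
    (fun k => exists_corrL_of_invariant _ (Lag.smul_coeff_lag _ 1 _ h1 hx k)) D.corr
  rw [Lag.eval_lag] at hX hY
  rw [one_mul] at hY
  refine ⟨X / Y, hX.div hY ?_ rfl⟩
  rw [Finset.prod_ne_zero_iff]
  intro q _
  split_ifs with h
  · exact one_ne_zero
  · rw [sub_ne_zero]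
    intro h2
    apply h
    induction q using QuotientGroup.induction_on with
    | H g =>
      rw [Lag.orb_mk] at h2
      have h3 : g ∈ L.Γ := D.mem_of_smul_eq h2.symm
      rw [eq_comm, QuotientGroup.eq]
      simpa using h3

end Fermat.Agent.S48.M
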