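import Fermat.Agent.S48.M.KL.Corr

/-!
# S48 / M / KL : `iotaL L x = f` implies `CorrL L n x f`   (helper27)

The `q`-expansion of an element of `AL n` is determined by the function.  `y = a / b ∈ Qq`, `a b ∈ Bq`; `f · B = A` as functions;
`Rel n f (eps n f)` gives `m`, `p` with `(f ∘ n) q^m` of `q`-expansion `p`;  so `p · B(q^n) = A(q^n) q^m` in `ℂ[[q]]`, hence in
`Kb[[q]]` (`kappa` is injective, `kappa ∘ zk = incl`).
-/

set_option autoImplicit false

open UpperHalfPlane ModularForm EisensteinSeries ModularCurve Polynomial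
open scoped MatrixGroups Manifold Real

noncomputable section

namespace Fermat.Agent.S48.M

open Fermat.Agent.S24 Fermat.Agent.S28 Fermat.Agent.S18

/-- `s(q^d)` -/
def ciExp {R : Type*} [Semiring R] (d : ℕ) (s : PowerSeries R) : PowerSeries R :=
  PowerSeries.mk fun m => if d ∣ m then s.coeff (m / d) else 0

theorem ciExp_map {R S : Type*} [Semiring R] [Semiring S] (φ : R →+* S) (d : ℕ)
    (s : PowerSeries R) : (ciExp d s).map φ = ciExp d (s.map φ) := by
  ext m
  simp only [ciExp, PowerSeries.coeff_map, PowerSeries.coeff_mk]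
  split_ifs <;> simp

theorem ofPowerSeries_ciExp (d : ℕ) [NeZero d] (s : PowerSeries Kb) :
    HahnSeries.ofPowerSeries ℤ Kb (ciExp d s) = qExpand Kb d (HahnSeries.ofPowerSeries ℤ Kb s) := by
  have hd : (0 : ℤ) < d := by exact_mod_cast Nat.pos_of_ne_zero (NeZero.ne d)
  ext k
  rcases lt_or_ge k 0 with hk | hk
  · rw [ofPowerSeries_coeff_of_neg _ hk]
    by_cases hdk : (d : ℤ) ∣ k
    · obtain ⟨m, rfl⟩ := hdk
      rw [qExpand_coeff_mul, ofPowerSeries_coeff_of_neg _ (by nlinarith)]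
    · rw [qExpand_coeff_of_not_dvd _ _ hdk]
  · lift k to ℕ using hk
    rw [HahnSeries.ofPowerSeries_apply_coeff, ciExp, PowerSeries.coeff_mk]
    by_cases hdk : d ∣ k
    · obtain ⟨m, rfl⟩ := hdk
      rw [if_pos (dvd_mul_right _ _), Nat.mul_div_cancel_left _ (Nat.pos_of_ne_zero (NeZero.ne d))]
      push_cast
      rw [qExpand_coeff_mul, HahnSeries.ofPowerSeries_apply_coeff]
    · rw [if_neg hdk, qExpand_coeff_of_not_dvd _ _ (by exact_mod_cast hdk)]

theorem qExpansion_scale_Bq (a : Bq) (d : ℕ) [NeZero d] :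
    qExpansion 1 (a.1.1 ∘ scaleH d) = (ciExp d a.1.2).map kappa := by
  ext m
  rw [qExpansion_scale_coeff a.2.1, a.2.2, ciExp_map]
  simp [ciExp]

theorem map_zk_map_kappa (p : PowerSeries Zb) :
    (p.map zk).map kappa = p.map (algebraMap Zb ℂ) := by
  ext m
  simp only [PowerSeries.coeff_map]
  exact kappa_zk _

theorem qExpand_phiS_of_phiH (n : ℕ) [NeZero n] (y : Qq) (f : AL n)
    (h : phiH y = algebraMap Hol Mer f.1) : qExpand Kb n (phiS y) = coeffMap zk (eps n f) := by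
  obtain ⟨a, b, hb, rfl⟩ := IsFractionRing.div_surjective (A := Bq) y
  have hb0 : b ≠ 0 := nonZeroDivisors.ne_zero hb
  have hbQ : algebraMap Bq Qq b ≠ 0 := by
    rw [Ne, IsFractionRing.to_map_eq_zero_iff]; exact hb0
  have hH0 : phiH (algebraMap Bq Qq b) ≠ 0 := (map_ne_zero phiH).mpr hbQ
  have hS0 : phiS (algebraMap Bq Qq b) ≠ 0 := (map_ne_zero phiS).mpr hbQ
  -- the identity of functions
  rw [map_div₀, div_eq_iff hH0, phiH_algebraMap, phiH_algebraMap, ← map_mul] at h
  have h1 : prH a = f.1 * prH b := IsFractionRing.injective Hol Mer h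
  have h2 : a.1.1 = (f.1 : ℍ → ℂ) * b.1.1 := congrArg Subtype.val h1
  obtain ⟨m, p, hQ, hp, hs⟩ := rel_eps n f
  have h3 : (a.1.1 ∘ scaleH n) * qq ^ m =
      (((f.1 : ℍ → ℂ) ∘ scaleH n) * qq ^ m) * (b.1.1 ∘ scaleH n) := by
    rw [h2]
    ext τ
    simp only [Pi.mul_apply, Function.comp_apply, Pi.pow_apply]
    ring
  have h4 := congrArg (qExpansion 1) h3
  rw [qExpansion_mul (a.2.1.scale n).analytic (RelAux.isQ_qq_pow m).analytic,
    qExpansion_mul hQ.analytic (b.2.1.scale n).analytic, hp, RelAux.qExpansion_qq_pow,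
    qExpansion_scale_Bq, qExpansion_scale_Bq, ← map_zk_map_kappa, ← map_mul,
    ← PowerSeries.map_X kappa, ← map_pow, ← map_mul] at h4
  have h5 : ciExp n a.1.2 * PowerSeries.X ^ m = p.map zk * ciExp n b.1.2 :=
    map_kappa_injective h4
  have h6 := congrArg (HahnSeries.ofPowerSeries ℤ Kb) h5
  rw [map_mul, map_mul, ofPowerSeries_ciExp, ofPowerSeries_ciExp, map_pow,
    HahnSeries.ofPowerSeries_X, HahnSeries.single_pow, one_pow] at h6
  rw [map_div₀, phiS_algebraMap, phiS_algebraMap, map_div₀, hs, map_mul, coeffMap_single,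
    coeffMap_ofPowerSeries, map_one]
  have h7 : qExpand Kb n (HahnSeries.ofPowerSeries ℤ Kb (prS b)) ≠ 0 := by
    rw [Ne, map_eq_zero_iff _ (qExpand_injective n), ← phiS_algebraMap]
    exact hS0
  rw [div_eq_iff h7]
  have h8 : HahnSeries.single (-(m : ℤ)) (1 : Kb) * HahnSeries.single (m • (1 : ℤ)) (1 : Kb) = 1 := by
    rw [HahnSeries.single_mul_single]
    simp
  have h9 : qExpand Kb n (HahnSeries.ofPowerSeries ℤ Kb (prS a)) =
      HahnSeries.single (-(m : ℤ)) (1 : Kb) * (qExpand Kb n (HahnSeries.ofPowerSeries ℤ Kb a.1.2) *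
        HahnSeries.single (m • (1 : ℤ)) (1 : Kb)) := by
    rw [mul_left_comm, h8, mul_one]
    rfl
  rw [h9, h6, mul_assoc]
  rfl

theorem corrL_of_iota {L : Lvl} {n : ℕ} [NeZero n] {x : FL L} {f : AL n}
    (h : iotaL L x = algebraMap Hol Mer f.1) : CorrL L n x f :=
  ⟨h, by rw [← phiS_iotaQL L x]; exact qExpand_phiS_of_phiH n _ f h⟩

end Fermat.Agent.S48.M
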