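import Fermat.Agent.S48.M.Fld.Interior

/-!
# S48 / M / KL : interface to the sub-layer FLD (helper18)
-/

set_option autoImplicit false

open UpperHalfPlane ModularForm ModularCurve IntermediateField
open Fermat.Agent.S24
open scoped MatrixGroups

noncomputable section

namespace Fermat.Agent.S48.M

variable (L : Lvl)

theorem sigmaL_eq_const (q : QL L) (a : Kb) :
    sigmaL L q (algebraMap Kb (FL L) a) = algebraMap ℂ Mer (kappa a) := sigmaL_algebraMap L q a

end Fermat.Agent.S48.M
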