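import Fermat.Agent.S48.M.KL.Aut
import Fermat.Agent.S48.M.QF.FG
import Fermat.Agent.S18.Haupt
import Fermat.Agent.S18.Z.Sat

/-!
# S48 / M / KL : the Gauss units `QF.GU` are stable under the normaliser   (helper27)

`x ∈ F_{L₁} ⊆ F_L`:  `GU x ↔ x, x⁻¹ ∈ VV A t (FL L)`;  automorphisms of `FL L` over `Kb(t)` preserve `VV`.
-/

set_option autoImplicit false
set_option synthInstance.maxHeartbeats 400000
set_option linter.unusedSectionVars false

open UpperHalfPlane ModularForm EisensteinSeries ModularCurve Polynomial IntermediateField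
open scoped MatrixGroups Manifold Real

noncomputable section

namespace Fermat.Agent.S48.M.KLL

open Fermat.Agent.S24 Fermat.Agent.S28 Fermat.Agent.S18 Fermat.Agent.ES.Alg

/-- the inclusion `F_{L₁} ⊆ F_L` -/
def inclL {L₁ L : Lvl} (hle : barL L₁ ≤ barL L) : FL L₁ →ₐ[Kb] FL L :=
  IntermediateField.inclusion hle

theorem coe_inclL {L₁ L : Lvl} (hle : barL L₁ ≤ barL L) (x : FL L₁) :
    ((inclL hle x : FL L) : LaurentSeries Kb) = x := IntermediateField.coe_inclusion hle x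

theorem iotaL_inclL {L₁ L : Lvl} (hle : barL L₁ ≤ barL L) (x : FL L₁) :
    iotaL L (inclL hle x) = iotaL L₁ x :=
  iotaL_eq L (inclL hle x) (iotaQL L₁ x) ((phiS_iotaQL L₁ x).trans (coe_inclL hle x).symm)

theorem hasFG_lvl (L : Lvl) : QF.HasFG L.F₀ :=
  (QF.hasFGD_of_gen L.gens L.adjoin_gens.symm L.gens_int AlgEquiv.refl (fun _ hx => hx)).hasFG

variable {L : Lvl} {M r : ℕ} [NeZero M]

theorem mem_VV_of_GU (H : Haupt M r) (D : KLData L M r) (A : ValuationSubring Kb) {l : ℕ}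
    (hl : l.Prime) (hA : A.LiesOverPrime l) (hlM : ¬ l ∣ M) (x : FL L) (y1 y2 : LaurentSeries A)
    (hmul : (x : LaurentSeries Kb) * coeffMap A.subtype y2 = coeffMap A.subtype y1)
    (h1 : red A y1 ≠ 0) (h2 : red A y2 ≠ 0) :
    x ∈ KL.VV A (tauL H D) (FL L) ∧ x⁻¹ ∈ KL.VV A (tauL H D) (FL L) := by
  refine ⟨mem_VV_of_quot H D A hl hA hlM x y1 y2 hmul h2,
    mem_VV_of_quot H D A hl hA hlM x⁻¹ y2 y1 ?_ h1⟩
  have hy2 : coeffMap A.subtype y2 ≠ 0 := by
    intro h
    apply h2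
    have : y2 = 0 := coeffMap_subtype_injective A (h.trans (map_zero _).symm)
    rw [this, map_zero]
  have hy1 : coeffMap A.subtype y1 ≠ 0 := by
    intro h
    apply h1
    have : y1 = 0 := coeffMap_subtype_injective A (h.trans (map_zero _).symm)
    rw [this, map_zero]
  have hx : (x : LaurentSeries Kb) ≠ 0 := by
    intro h
    rw [h, zero_mul] at hmul
    exact hy1 hmul.symm
  rw [← hmul]
  push_cast
  field_simp

theorem mem_A_of_mem_VV (H : Haupt M r) (D : KLData L M r) (A : ValuationSubring Kb) (c : Kb)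
    (hc : algebraMap Kb (FL L) c ∈ KL.VV A (tauL H D) (FL L)) : c ∈ A := by
  have h1 : algebraMap (LT H D) (FL L) (algebraMap Kb (LT H D) c) ∈ KL.VV A (tauL H D) (FL L) := hc
  have := finiteDimensional_LT H D
  exact (KL.algebraMap_mem_OG_iff A (transcendental_tauL H D) c).mp
    (KL.mem_OG_of_algebraMap_mem_VV A (transcendental_tauL H D) (isGen_tauL H D) h1)

theorem GU_of_mem_VV {L₁ : Lvl} (hle : barL L₁ ≤ barL L) (H : Haupt M r) (D : KLData L M r)
    (A : ValuationSubring Kb) {l : ℕ} (hl : l.Prime) (hA : A.LiesOverPrime l) (hlM : ¬ l ∣ M)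
    (x : FL L₁) (hx0 : x ≠ 0) (hx : inclL hle x ∈ KL.VV A (tauL H D) (FL L))
    (hx' : (inclL hle x)⁻¹ ∈ KL.VV A (tauL H D) (FL L)) : QF.GU A L₁.F₀ x := by
  obtain ⟨c, y1, y2, hc, hm1, hm2, h1, h2, hmul⟩ := QF.exists_scale A (hasFG_lvl L₁) x hx0
  -- `u = y1 / y2`
  have hy2 : coeffMap A.subtype y2 ≠ 0 := by
    intro h
    apply h2
    have : y2 = 0 := coeffMap_subtype_injective A (h.trans (map_zero _).symm)
    rw [this, map_zero]
  let Y1 : FL L := ⟨coeffMap A.subtype y1, hle hm1⟩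
  let Y2 : FL L := ⟨coeffMap A.subtype y2, hle hm2⟩
  have hY2 : Y2 ≠ 0 := fun h => hy2 (congrArg Subtype.val h)
  have hu := mem_VV_of_GU H D A hl hA hlM (Y1 / Y2) y1 y2 (by
    have : Y1 / Y2 * Y2 = Y1 := div_mul_cancel₀ Y1 hY2
    exact congrArg Subtype.val this) h1 h2
  have hxc : inclL hle x = algebraMap Kb (FL L) c * (Y1 / Y2) := by
    rw [mul_div_assoc', eq_div_iff hY2]
    apply Subtype.ext
    show ((inclL hle x : FL L) : LaurentSeries Kb) * _ = _
    rw [coe_inclL]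
    exact hmul
  have hY1 : Y1 ≠ 0 := by
    intro h
    rw [h, zero_div, mul_zero] at hxc
    exact hx0 ((inclL hle).injective (hxc.trans (map_zero _).symm))
  have hc0 : algebraMap Kb (FL L) c ≠ 0 := (_root_.map_ne_zero _).mpr hc
  have hcA : c ∈ A := by
    apply mem_A_of_mem_VV H D A
    have : algebraMap Kb (FL L) c = inclL hle x * (Y1 / Y2)⁻¹ := by
      rw [hxc, mul_assoc, mul_inv_cancel₀ (div_ne_zero hY1 hY2), mul_one]
    rw [this]
    exact mul_mem hx hu.2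
  have hcA' : c⁻¹ ∈ A := by
    apply mem_A_of_mem_VV H D A
    have : algebraMap Kb (FL L) c⁻¹ = (inclL hle x)⁻¹ * (Y1 / Y2) := by
      rw [hxc, mul_inv, mul_assoc, inv_mul_cancel₀ (div_ne_zero hY1 hY2), mul_one, map_inv₀]
    rw [this]
    exact mul_mem hx' hu.1
  refine ⟨HahnSeries.single 0 ⟨c, hcA⟩ * y1, y2, ?_, hm2, ?_, h2, ?_⟩
  · show coeffMap A.subtype _ ∈ _
    rw [map_mul, coeffMap_subtype_single]
    exact mul_mem ((laurentBaseChange Kb L₁.F₀).algebraMap_mem _) hm1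
  · rw [map_mul, red_single]
    refine mul_ne_zero ?_ h1
    rw [Ne, _root_.map_eq_zero, IsLocalRing.residue_eq_zero_iff,
      IsLocalRing.mem_maximalIdeal, mem_nonunits_iff, not_not]
    exact IsUnit.of_mul_eq_one ⟨c⁻¹, hcA'⟩ (Subtype.ext (mul_inv_cancel₀ hc))
  · rw [map_mul, coeffMap_subtype_single]
    exact hmul

/-- the Gauss units of `F_{L₁}` are stable under `g`, if `g ∈ Γ₀(r)` normalises the auxiliary level `L` -/
theorem gu_of_aut {L₁ : Lvl} (hle : barL L₁ ≤ barL L) (hr : r = 2 ∨ r = 3) (D : KLData L M r)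
    (A : ValuationSubring Kb) {l : ℕ} (hl : l.Prime) (hA : A.LiesOverPrime l) (hlM : ¬ l ∣ M)
    (g : SL(2, ℤ)) (hgr : (r : ℤ) ∣ g 1 0) (hnorm : ∀ k ∈ L.Γ, g⁻¹ * k * g ∈ L.Γ)
    (x x' : FL L₁) (hxx' : iotaL L₁ x' = merAct g (iotaL L₁ x)) (hx : QF.GU A L₁.F₀ x) :
    QF.GU A L₁.F₀ x' := by
  have : NeZero r := ⟨by rcases hr with rfl | rfl <;> norm_num⟩
  let H : Haupt M r := haupt M r hr D.hrn
  obtain ⟨δ, hδ⟩ := exists_autL H D g hgr hnorm
  obtain ⟨y1, y2, -, -, h1, h2, hmul⟩ := hx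
  have hV := mem_VV_of_GU H D A hl hA hlM (inclL hle x) y1 y2
    (by rw [coe_inclL]; exact hmul) h1 h2
  have e : inclL hle x' = δ (inclL hle x) := by
    apply (iotaL L).injective
    rw [hδ, iotaL_inclL, iotaL_inclL, hxx']
  have hx0 : x ≠ 0 := by
    rintro rfl
    have hy1 : coeffMap A.subtype y1 = 0 := by rw [← hmul]; simp
    apply h1
    have : y1 = 0 := coeffMap_subtype_injective A (hy1.trans (map_zero _).symm)
    rw [this, map_zero]
  have hx'0 : x' ≠ 0 := by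
    rintro rfl
    rw [map_zero] at e
    have h3 : inclL hle x = 0 := δ.toRingHom.injective (by simpa using e.symm)
    exact hx0 ((inclL hle).injective (h3.trans (map_zero _).symm))
  refine GU_of_mem_VV hle H D A hl hA hlM x' hx'0 ?_ ?_
  · rw [e]; exact mem_VV_of_algHom A _ δ hV.1
  · rw [e, ← map_inv₀]; exact mem_VV_of_algHom A _ δ hV.2

end Fermat.Agent.S48.M.KLL
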