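import Fermat.Agent.S48.M.KL.GU
import Fermat.Agent.S48.M.KL.Prim

/-!
# S48 / M / KL : the Gauss units of `FL (lvG M 1)` are stable under `Γ₀(M)`   (helper27; request of helper2, (GU-inv))

`gu_actG`: `A ∣ ℓ ∤ M`, `g ∈ Γ₀(M)`, `ι x' = (ι x) ∘ g⁻¹`, `GU x` ⟹ `GU x'`.   For the diamond operators:
`g = (gamD M d)⁻¹`, `x' = diaG M d x`, `iotaL_diaG`.
-/

set_option autoImplicit false
set_option synthInstance.maxHeartbeats 400000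

open UpperHalfPlane ModularForm ModularCurve CongruenceSubgroup
open scoped MatrixGroups

noncomputable section

namespace Fermat.Agent.S48.M.KLL

open Fermat.Agent.S24 Fermat.Agent.S28 Fermat.Agent.S18

theorem low_of_mem_Gamma0 {M : ℕ} {g : SL(2, ℤ)} (hg : g ∈ Gamma0 M) :
    ((g 1 0 : ℤ) : ZMod M) = 0 := Gamma0_mem.1 hg

theorem Gamma0_mul_le' (M R : ℕ) : Gamma0 (M * R) ≤ Gamma0 M := fun _ hg =>
  Gamma0_mem.2 (ggAux_low hg)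

/-- `Γ₀(M R)` normalises `GG M R` -/
theorem norm_GG {M R : ℕ} {g : SL(2, ℤ)} (hg : g ∈ Gamma0 (M * R)) (k : SL(2, ℤ))
    (hk : k ∈ GG M R) : g⁻¹ * k * g ∈ GG M R := by
  obtain ⟨hk0, hk1⟩ := mem_GG.mp hk
  have hgi : g⁻¹ ∈ Gamma0 (M * R) := (Gamma0 (M * R)).inv_mem hg
  refine mem_GG.mpr ⟨(Gamma0 (M * R)).mul_mem ((Gamma0 (M * R)).mul_mem hgi hk0) hg, ?_⟩
  have h1 : (((g⁻¹ * k * g) 1 1 : ℤ) : ZMod M) = ((k 1 1 : ℤ) : ZMod M) := by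
    rw [ggAux_mul (ggAux_low ((Gamma0 (M * R)).mul_mem hgi hk0)), ggAux_mul (ggAux_low hgi),
      mul_right_comm, ggAux_inv (ggAux_low hg), one_mul]
  rw [h1]
  exact hk1

/-- representatives of `Γ₀(M) / ±Γ₁(M)` in `Γ₀(M R)` -/
theorem exists_rep (M R : ℕ) [NeZero M] [NeZero R] {g : SL(2, ℤ)} (hg : g ∈ Gamma0 M) :
    ∃ g' ∈ Gamma0 (M * R), g⁻¹ * g' ∈ GG M 1 := by
  obtain ⟨u, hu⟩ : IsUnit ((g 1 1 : ℤ) : ZMod M) := by
    have h := ggAux_inv (low_of_mem_Gamma0 hg)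
    exact IsUnit.of_mul_eq_one _ (by rw [mul_comm]; exact h)
  obtain ⟨w, hw⟩ := ZMod.unitsMap_surjective (Dvd.intro R rfl : M ∣ M * R) u
  refine ⟨gamD (M * R) w, gamD_mem (M * R) w, ?_⟩
  have h0 : gamD (M * R) w ∈ Gamma0 M := Gamma0_mul_le' M R (gamD_mem (M * R) w)
  have h1 : ((gamD (M * R) w 1 1 : ℤ) : ZMod M) = ((g 1 1 : ℤ) : ZMod M) := by
    have h2 := gamD_apply (M * R) w
    have h3 := congrArg (ZMod.castHom (Dvd.intro R rfl : M ∣ M * R) (ZMod M)) h2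
    rw [map_intCast] at h3
    rw [h3, ← hu, ← hw]
    rfl
  refine mem_GG.mpr ⟨?_, Or.inl ?_⟩
  · rw [mul_one]
    exact (Gamma0 M).mul_mem ((Gamma0 M).inv_mem hg) h0
  · rw [ggAux_mul (low_of_mem_Gamma0 ((Gamma0 M).inv_mem hg)), h1,
      ggAux_inv (low_of_mem_Gamma0 hg)]

theorem gu_actG (M : ℕ) [NeZero M] {ℓ : ℕ} (hℓ : ℓ.Prime) (hℓM : ¬ ℓ ∣ M)
    (A : ValuationSubring Kb) (hA : A.LiesOverPrime ℓ) (g : SL(2, ℤ)) (hg : g ∈ Gamma0 M)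
    (x x' : FL (lvG M 1)) (hxx' : iotaL (lvG M 1) x' = merAct g (iotaL (lvG M 1) x))
    (hx : QF.GU A (lvG M 1).F₀ x) : QF.GU A (lvG M 1).F₀ x' := by
  obtain ⟨r, hr, hrl⟩ : ∃ r : ℕ, (r = 2 ∨ r = 3) ∧ r ≠ ℓ := by
    by_cases h2 : ℓ = 2
    · exact ⟨3, Or.inr rfl, by omega⟩
    · exact ⟨2, Or.inl rfl, fun h => h2 h.symm⟩
  have hrp : r.Prime := by rcases hr with rfl | rfl <;> norm_num
  have : NeZero r := ⟨hrp.ne_zero⟩
  obtain ⟨D⟩ := exists_klDataG M r r (dvd_mul_left r M)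
  have hℓMr : ¬ ℓ ∣ M * r := by
    intro h
    rcases (hℓ.dvd_mul).mp h with h1 | h1
    · exact hℓM h1
    · exact hrl ((Nat.prime_dvd_prime_iff_eq hℓ hrp).mp h1).symm
  obtain ⟨g', hg', hgg'⟩ := exists_rep M r hg
  have hgr : (r : ℤ) ∣ g' 1 0 :=
    (Int.natCast_dvd_natCast.mpr (dvd_mul_left r M)).trans
      ((ZMod.intCast_zmod_eq_zero_iff_dvd _ _).mp (Gamma0_mem.mp hg'))
  refine gu_of_aut (barL_le M r) hr D A hℓ hA hℓMr g' hgr (fun k hk => norm_GG hg' k hk) x x' ?_ hx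
  have h1 : g' = g * (g⁻¹ * g') := by group
  rw [hxx', h1, merAct_mul, merAct_iotaL_of_mem (lvG M 1) hgg']

end Fermat.Agent.S48.M.KLL
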