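import Fermat.Agent.S48.M.KL.Tau
import Fermat.Agent.S18.Z.Basis

/-!
# S48 / M / KL : good reduction (R) and the Gauss ring  (port of `S18/ModGood.lean`; helper27)

* `indep_mod` : `1, j_M, …, j_M^(n-1)` stay independent over `k(t)` modulo `𝔪`;
* `exists_goodRed` : hypothesis **(R)** of Theorem Z for `FL L / Kb(t)`;
* `smV_of_quot` : a quotient `y1 / y2` of `A`-integral `q`-expansions, `y1 ≡ 0`, `y2 ≢ 0 mod 𝔪`,
  lies in `𝔪 V`; `mem_VV_of_quot`.
-/

set_option autoImplicit false
set_option synthInstance.maxHeartbeats 400000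
set_option linter.unusedSectionVars false

open UpperHalfPlane ModularForm EisensteinSeries ModularCurve Polynomial IntermediateField
open scoped MatrixGroups Manifold Real

noncomputable section

namespace Fermat.Agent.S48.M.KLL

open Fermat.Agent.S24 Fermat.Agent.S28 Fermat.Agent.S18

section Series

variable {K : Type*} [Field K] (A : ValuationSubring K)

theorem coeffMap_subtype_injective : Function.Injective (coeffMap A.subtype) := by
  intro x y h
  ext n
  have := congrArg (fun s => s.coeff n) h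
  simpa using this

theorem exists_series_lift (x : LaurentSeries K) (h : ∀ n, x.coeff n ∈ A) :
    ∃ y : LaurentSeries A, coeffMap A.subtype y = x := by
  refine ⟨⟨fun n => ⟨x.coeff n, h n⟩, x.isPWO_support.mono ?_⟩, ?_⟩
  · intro n hn
    simp only [Function.mem_support, ne_eq] at hn ⊢
    intro h0
    exact hn (Subtype.ext h0)
  · ext n
    rfl

end Series

variable {L : Lvl} {M r : ℕ} [NeZero M]

section Rel

variable {Fb : Type} [Field Fb] (φ : Zb →+* Fb)

theorem red_eval₂_gen (f : AL M) (P : Zb[X]) :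
    red M φ (P.eval₂ (cA M) f) = aeval (red M φ f) (P.map φ) := by
  rw [Polynomial.hom_eval₂, aeval_def, eval₂_map]
  congr 1
  ext c : 1
  rw [RingHom.comp_apply, RingHom.comp_apply, red_cA, algebraMap_laurent_eq_single]
  rfl

theorem order_red_tA_neg (H : Haupt M r) : (red M φ H.tA).order < 0 := by
  have h1 : (red M φ H.tA).coeff (-(M : ℤ)) = 1 := by
    rw [red_coeff, H.coeff_eps, map_one]
  have h2 := HahnSeries.order_le_of_coeff_ne_zero (x := red M φ H.tA)
    (g := -(M : ℤ)) (by rw [h1]; exact one_ne_zero)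
  have h3 : 0 < M := Nat.pos_of_ne_zero (NeZero.ne M)
  omega

theorem red_tA_ne_zero (H : Haupt M r) : red M φ H.tA ≠ 0 := by
  intro h
  have := order_red_tA_neg φ H
  rw [h] at this
  simp at this

theorem transcendental_red_tA (H : Haupt M r) : Transcendental Fb (red M φ H.tA) :=
  transcendental_of_order_neg (order_red_tA_neg φ H)

theorem smul_eval₂_tA (H : Haupt M r) {g : SL(2, ℤ)} (hg : (r : ℤ) ∣ g 1 0) (P : Zb[X]) :
    g • P.eval₂ (cA M) H.tA = P.eval₂ (cA M) H.tA := by
  have := Polynomial.hom_eval₂ P (cA M) (MulSemiringAction.toRingHom SL(2, ℤ) (AL M) g) H.tA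
  simp only [MulSemiringAction.toRingHom_apply] at this
  have hcomp : (MulSemiringAction.toRingHom SL(2, ℤ) (AL M) g).comp (cA M) = cA M :=
    RingHom.ext fun c => smul_cA M g c
  rw [this, H.smul_tA g hg, hcomp]

/-- the conjugates of `θ`, reduced, indexed by cosets -/
def rootOf (D : KLData L M r) (q : QL L) : LaurentSeries Fb := red M φ (q.out • D.θA)

theorem rootOf_injective (D : KLData L M r) (hφ : ∀ s : ℕ, s.Prime → s ∣ M → φ (s : Zb) ≠ 0) :
    Function.Injective (rootOf φ D) := by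
  intro q q' h
  have h1 : q.out • D.θA - q'.out • D.θA ∈ Pr M φ := by
    rw [mem_Pr, map_sub, sub_eq_zero]; exact h
  have h2 := smul_mem_Pr M φ hφ (q'.out)⁻¹ h1
  rw [smul_sub, inv_smul_smul, ← mul_smul, mem_Pr, map_sub, sub_eq_zero] at h2
  have h3 := D.sep φ hφ _ h2
  rw [← QuotientGroup.out_eq' q, ← QuotientGroup.out_eq' q', eq_comm]
  exact QuotientGroup.eq.mpr h3

/-- a polynomial relation between `t` and `j_M` modulo the prime, of degree `< [Γ₀(r):Γ₀(M)]`, is
trivial -/
theorem coeff_eq_zero_of_relation_tA (H : Haupt M r) (D : KLData L M r)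
    (hφ : ∀ s : ℕ, s.Prime → s ∣ M → φ (s : Zb) ≠ 0)
    (P : Fin (Nat.card (X0 L r)) → Zb[X])
    (h : ∑ i, (P i).eval₂ (cA M) H.tA * D.θA ^ (i : ℕ) ∈ Pr M φ)
    (i : Fin (Nat.card (X0 L r))) : (P i).map φ = 0 := by
  have : Fintype (X0 L r) := Fintype.ofFinite _
  let Hp : (LaurentSeries Fb)[X] :=
    ∑ i : Fin (Nat.card (X0 L r)), C (aeval (red M φ H.tA) ((P i).map φ)) * X ^ (i : ℕ)
  have hroot : ∀ q : X0 L r, Hp.eval (rootOf φ D q.1) = 0 := by
    intro q
    have h1 := (mem_Pr M φ).mp (smul_mem_Pr M φ hφ q.1.out h)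
    rw [Finset.smul_sum, map_sum] at h1
    simp only [Hp, eval_finsetSum, eval_mul, eval_C, eval_pow, eval_X]
    rw [← h1]
    refine Finset.sum_congr rfl fun i _ => ?_
    rw [smul_mul', smul_pow', map_mul, map_pow, smul_eval₂_tA H q.2, red_eval₂_gen]
    rfl
  have hdeg : Hp.natDegree < Fintype.card (X0 L r) := by
    have hpos : 0 < Nat.card (X0 L r) := by
      by_contra h0
      have h1 : Nat.card (X0 L r) = 0 := by omega
      exact (Fin.cast h1 i).elim0
    have h1 := Polynomial.degree_sum_fin_lt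
      (fun i : Fin (Nat.card (X0 L r)) => aeval (red M φ H.tA) ((P i).map φ))
    rw [← Nat.card_eq_fintype_card]
    by_cases hH : Hp = 0
    · rw [hH, natDegree_zero]; exact hpos
    · exact (Polynomial.natDegree_lt_iff_degree_lt hH).mpr h1
  have hinj : Function.Injective fun q : X0 L r => rootOf φ D q.1 := fun q q' hq =>
    Subtype.ext (rootOf_injective φ D hφ hq)
  have hH : Hp = 0 := Polynomial.eq_zero_of_natDegree_lt_card_of_eval_eq_zero Hp hinj hroot hdeg
  have hci : Hp.coeff (i : ℕ) = aeval (red M φ H.tA) ((P i).map φ) := by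
    simp only [Hp, finsetSum_coeff, coeff_C_mul, coeff_X_pow]
    rw [Finset.sum_eq_single i]
    · simp
    · intro b _ hb
      have : (i : ℕ) ≠ (b : ℕ) := fun h => hb (Fin.ext h.symm)
      simp [this]
    · simp
  rw [hH, coeff_zero] at hci
  exact (transcendental_iff.mp (transcendental_red_tA φ H)) _ hci.symm

end Rel

/-! ### `A`-integral models of `q`-expansions -/

theorem _root_.Fermat.Agent.S48.M.CorrL.coeff {x : FL L} {f : AL M} (h : CorrL L M x f) (n : ℤ) :
    (x : LaurentSeries Kb).coeff n = zk ((eps M f).coeff ((M : ℤ) * n)) := by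
  rw [← qExpand_coeff_mul M, h.qexp_eq, coeffMap_coeff]

theorem _root_.Fermat.Agent.S48.M.CorrL.coeff_eps_of_not_dvd {x : FL L} {f : AL M} (h : CorrL L M x f) {k : ℤ}
    (hk : ¬ (M : ℤ) ∣ k) : (eps M f).coeff k = 0 := by
  apply zk_injective
  rw [map_zero, ← coeffMap_coeff, ← h.qexp_eq, qExpand_coeff_of_not_dvd M _ hk]

theorem _root_.Fermat.Agent.S48.M.CorrL.exists_series {x : FL L} {f : AL M} (h : CorrL L M x f) (A : ValuationSubring Kb) :
    ∃ y : LaurentSeries A, coeffMap A.subtype y = (x : LaurentSeries Kb) ∧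
      qExpand (IsLocalRing.ResidueField A) M (coeffMap (IsLocalRing.residue A) y) =
        red M (phiA A) f := by
  obtain ⟨y, hy⟩ := exists_series_lift A (x : LaurentSeries Kb)
    (fun n => by rw [h.coeff]; exact zk_mem A _)
  refine ⟨y, hy, ?_⟩
  ext k
  by_cases hk : (M : ℤ) ∣ k
  · obtain ⟨n, rfl⟩ := hk
    rw [qExpand_coeff_mul, coeffMap_coeff, red_coeff]
    show _ = IsLocalRing.residue A (zkA A _)
    congr 1
    apply Subtype.ext
    rw [coe_zkA, ← h.coeff, ← hy]
    rfl
  · rw [qExpand_coeff_of_not_dvd M _ hk, red_coeff, h.coeff_eps_of_not_dvd hk, map_zero]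

/-- evaluation of polynomials at a Laurent series -/
def evS (A : ValuationSubring Kb) (t : LaurentSeries A) : (↥A)[X] →+* LaurentSeries A :=
  eval₂RingHom HahnSeries.C t

theorem coeffMap_subtype_evS (H : Haupt M r) (D : KLData L M r) (A : ValuationSubring Kb)
    {t : LaurentSeries A} (ht : coeffMap A.subtype t = (tauF H D : LaurentSeries Kb))
    (P : (↥A)[X]) : coeffMap A.subtype (evS A t P) =
      ((KL.evE A (tauL H D) (FL L) P : FL L) : LaurentSeries Kb) := by
  have h : (coeffMap A.subtype).comp (evS A t) =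
      ((algebraMap (FL L) (LaurentSeries Kb))).comp (KL.evE A (tauL H D) (FL L)) := by
    apply Polynomial.ringHom_ext
    · intro a
      simp only [RingHom.comp_apply, evS, KL.evE, KL.evL, coe_eval₂RingHom, eval₂_C]
      show coeffMap A.subtype (HahnSeries.single 0 a) = algebraMap Kb (LaurentSeries Kb) (a : Kb)
      rw [coeffMap_single, algebraMap_laurent_eq_single]
      rfl
    · simp only [RingHom.comp_apply, evS, KL.evE, KL.evL, coe_eval₂RingHom, eval₂_X]
      exact ht
  exact DFunLike.congr_fun h P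

theorem coeffMap_residue_evS (A : ValuationSubring Kb) (t : LaurentSeries A) (P : (↥A)[X]) :
    coeffMap (IsLocalRing.residue A) (evS A t P) =
      aeval (coeffMap (IsLocalRing.residue A) t) (KL.redP A P) := by
  have h : (coeffMap (IsLocalRing.residue A)).comp (evS A t) =
      ((aeval (coeffMap (IsLocalRing.residue A) t) :
        (IsLocalRing.ResidueField A)[X] →ₐ[_] _) : _ →+* _).comp (KL.redP A) := by
    apply Polynomial.ringHom_ext
    · intro a
      simp only [RingHom.comp_apply, evS, KL.redP, coe_eval₂RingHom, eval₂_C, coe_mapRingHom,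
        map_C, RingHom.coe_coe, aeval_C]
      show coeffMap (IsLocalRing.residue A) (HahnSeries.single 0 a) = _
      rw [coeffMap_single, algebraMap_laurent_eq_single]
    · simp only [RingHom.comp_apply, evS, KL.redP, coe_eval₂RingHom, eval₂_X, coe_mapRingHom,
        map_X, RingHom.coe_coe, aeval_X]
  exact DFunLike.congr_fun h P

theorem qExpand_aeval {k : Type*} [Field k] (t : LaurentSeries k) (Q : k[X]) :
    qExpand k M (aeval t Q) = aeval (qExpand k M t) Q := by
  rw [aeval_def, aeval_def, hom_eval₂]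
  congr 1
  ext c : 1
  rw [RingHom.comp_apply, algebraMap_laurent_eq_single, qExpand_single, mul_zero]

theorem indep_series (H : Haupt M r) (D : KLData L M r) (A : ValuationSubring Kb) {l : ℕ} (hl : l.Prime)
    (hA : A.LiesOverPrime l) (hlM : ¬ l ∣ M) {t j : LaurentSeries A}
    (ht : qExpand (IsLocalRing.ResidueField A) M (coeffMap (IsLocalRing.residue A) t) =
      red M (phiA A) H.tA)
    (hj : qExpand (IsLocalRing.ResidueField A) M (coeffMap (IsLocalRing.residue A) j) =
      red M (phiA A) (D.θA))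
    (P : Fin (Nat.card (X0 L r)) → (↥A)[X])
    (h0 : coeffMap (IsLocalRing.residue A) (∑ i, evS A t (P i) * j ^ (i : ℕ)) = 0)
    (i : Fin (Nat.card (X0 L r))) : KL.redP A (P i) = 0 := by
  choose Q hQ using fun i => Polynomial.map_surjective _ (phiA_surjective A hl hA) (KL.redP A (P i))
  rw [← hQ i]
  refine coeff_eq_zero_of_relation_tA (phiA A) H D (phiA_natCast_ne_zero A hl hA hlM) Q ?_ i
  rw [mem_Pr, map_sum]
  have h1 := congrArg (qExpand (IsLocalRing.ResidueField A) M) h0
  rw [map_zero, map_sum, map_sum] at h1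
  rw [← h1]
  refine Finset.sum_congr rfl fun i _ => ?_
  rw [map_mul, map_pow, red_eval₂_gen, hQ, map_mul, map_mul, map_pow, map_pow, hj,
    coeffMap_residue_evS, qExpand_aeval, ht]

theorem indep_mod (H : Haupt M r) (D : KLData L M r) (A : ValuationSubring Kb) {l : ℕ} (hl : l.Prime)
    (hA : A.LiesOverPrime l) (hlM : ¬ l ∣ M) (P : Fin (Nat.card (X0 L r)) → (↥A)[X])
    (y : LaurentSeries A)
    (hy : coeffMap A.subtype y = ((∑ i, KL.evE A (tauL H D) (FL L) (P i) *
      D.θF ^ (i : ℕ) : FL L) : LaurentSeries Kb))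
    (h0 : coeffMap (IsLocalRing.residue A) y = 0) (i : Fin (Nat.card (X0 L r))) :
    KL.redP A (P i) = 0 := by
  obtain ⟨t, ht1, ht2⟩ := (corr_tauF H D).exists_series A
  obtain ⟨j, hj1, hj2⟩ := D.corr.exists_series A
  refine indep_series H D A hl hA hlM ht2 hj2 P ?_ i
  have h1 : y = ∑ i, evS A t (P i) * j ^ (i : ℕ) := by
    apply coeffMap_subtype_injective A
    rw [hy, map_sum, AddSubmonoidClass.coe_finsetSum]
    refine Finset.sum_congr rfl fun i _ => ?_
    rw [map_mul, map_pow, coeffMap_subtype_evS H D A ht1, hj1]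
    rfl
  rw [← h1, h0]

/-! ### the Gauss ring -/

theorem evL_map_zkA (H : Haupt M r) (D : KLData L M r) (A : ValuationSubring Kb) (P : Zb[X]) :
    KL.evL A (tauL H D) (P.map (zkA A)) = aeval (tauL H D) (P.map zk) := by
  rw [KL.evL, coe_eval₂RingHom, eval₂_map, aeval_def, eval₂_map]
  rfl

theorem redP_map_zkA (A : ValuationSubring Kb) (P : Zb[X]) :
    KL.redP A (P.map (zkA A)) = P.map (phiA A) := by
  rw [KL.redP, coe_mapRingHom, Polynomial.map_map]
  rfl

theorem evL_X_pow (H : Haupt M r) (D : KLData L M r) (A : ValuationSubring Kb) (b : ℕ) :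
    KL.evL A (tauL H D) (X ^ b) = tauL H D ^ b := by
  rw [map_pow, KL.evL, coe_eval₂RingHom, eval₂_X]

theorem redP_X_pow_ne_zero (A : ValuationSubring Kb) (b : ℕ) : KL.redP A (X ^ b) ≠ 0 := by
  rw [map_pow, KL.redP, coe_mapRingHom, map_X]
  exact pow_ne_zero _ X_ne_zero

/-- `Γ₀(r)`-invariant elements of `AL M` lie in the Gauss ring -/
theorem mem_OG_of_corr (H : Haupt M r) (D : KLData L M r) (A : ValuationSubring Kb) {x : LT H D}
    {f : AL M} (hf : ∀ g : SL(2, ℤ), (r : ℤ) ∣ g 1 0 → g • f = f) (h : CorrL L M (x : FL L) f) :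
    x ∈ KL.OG A (tauL H D) := by
  obtain ⟨x', hx', b, P, h1, -⟩ := exists_LT_of_invariant H D f hf
  have : x = x' := Subtype.ext (h.unique_left hx')
  subst this
  refine ⟨P.map (zkA A), X ^ b, redP_X_pow_ne_zero A b, ?_⟩
  rw [evL_X_pow, evL_map_zkA, ← h1, mul_comm]

/-- ... and are units of it if they do not vanish modulo the prime -/
theorem inv_mem_OG_of_corr (H : Haupt M r) (D : KLData L M r) (A : ValuationSubring Kb) {x : LT H D}
    {f : AL M} (hf : ∀ g : SL(2, ℤ), (r : ℤ) ∣ g 1 0 → g • f = f) (h : CorrL L M (x : FL L) f)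
    (hPr : f ∉ Pr M (phiA A)) : x⁻¹ ∈ KL.OG A (tauL H D) := by
  obtain ⟨x', hx', b, P, h1, h2⟩ := exists_LT_of_invariant H D f hf
  have : x = x' := Subtype.ext (h.unique_left hx')
  subst this
  have hx0 : x ≠ 0 := by
    intro h0
    apply hPr
    have : f = 0 := h.eq_zero_iff.mp (by rw [h0]; rfl)
    rw [this]; exact zero_mem _
  refine ⟨X ^ b, P.map (zkA A), ?_, ?_⟩
  · rw [redP_map_zkA]
    intro h0
    have h3 := congrArg (red M (phiA A)) h2
    rw [red_eval₂_gen, h0, map_zero, map_mul, map_pow] at h3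
    rcases mul_eq_zero.mp h3 with h4 | h4
    · exact hPr ((mem_Pr M _).mpr h4)
    · exact red_tA_ne_zero (phiA A) H (eq_zero_of_pow_eq_zero h4)
  · rw [evL_X_pow, evL_map_zkA, ← h1]
    field_simp

theorem jM_mem_VV (H : Haupt M r) (D : KLData L M r) (A : ValuationSubring Kb) :
    D.θF ∈ KL.VV A (tauL H D) (FL L) := by
  obtain ⟨p, hp, -, h0, hc⟩ := exists_chiL H D
  apply KL.mem_VV_of_isIntegralElem A (transcendental_tauL H D)
  have hsub : (↑p.coeffs : Set (LT H D)) ⊆ (KL.OG A (tauL H D) : Set (LT H D)) := by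
    intro c hc'
    obtain ⟨i, -, rfl⟩ := Polynomial.mem_coeffs_iff.mp hc'
    exact mem_OG_of_corr H D A (smul_coeff_chiA D i) (hc i)
  refine ⟨p.toSubring _ hsub, (monic_toSubring p _ hsub).mpr hp, ?_⟩
  rw [← eval₂_map, map_toSubring]
  exact h0

/-! ### the discriminant -/

/-- `AL M → Mer` -/
def aM (M : ℕ) [NeZero M] : AL M →+* Mer := (algebraMap Hol Mer).comp (AL M).subtype

theorem aM_injective : Function.Injective (aM M) :=
  (IsFractionRing.injective Hol Mer).comp Subtype.val_injective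

theorem aM_smul (g : SL(2, ℤ)) (f : AL M) : aM M (g • f) = merAct g (aM M f) :=
  (merAct_algebraMap g f.1).symm

theorem sigX_jM (D : KLData L M r) (q : X0 L r) : sigX L r q (D.θF) = aM M (xq D q.1) := by
  show sigmaL L q.1 _ = _
  rw [sigma_of_corr (D.corr), xq_eq_out]
  rfl

/-- the coset of `1` -/
def q1 (D : KLData L M r) : X0 L r := ⟨_, isX0_one D⟩

theorem sigX_q1 (D : KLData L M r) (x : FL L) : sigX L r (q1 D) x = iotaL L x := by
  show sigmaL L ((1 : SL(2, ℤ)) : QL L) x = _
  rw [sigmaL_mk, merAct_one]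
  rfl

/-- the conjugates of `j_M` over `Kb(t)`, enumerated -/
def vq (D : KLData L M r) (a : Fin (Nat.card (X0 L r))) : AL M :=
  xq D ((Finite.equivFin (X0 L r)).symm a).1

theorem iota_det_traceMatrix (H : Haupt M r) (D : KLData L M r)
    (β : Module.Basis (Fin (Nat.card (X0 L r))) (LT H D) (FL L))
    (hβ : ∀ i, β i = D.θF ^ (i : ℕ)) :
    iotaL L (algebraMap (LT H D) (FL L) (Algebra.traceMatrix (LT H D) β).det) =
      aM M ((Matrix.vandermonde (vq D)).det ^ 2) := by
  have hfin := finiteDimensional_LT H D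
  have : Fintype (X0 L r) := Fintype.ofFinite _
  have : CharZero (LT H D) := charZero_of_injective_algebraMap (algebraMap Kb (LT H D)).injective
  rw [← sigX_q1 D]
  have h1 : sigX L r (q1 D) (algebraMap (LT H D) (FL L)
      (Algebra.traceMatrix (LT H D) β).det) =
      ((sigX L r (q1 D)).comp (algebraMap (LT H D) (FL L)))
        (Algebra.traceMatrix (LT H D) β).det := rfl
  have h2 : (Matrix.vandermonde (vq D)).det ^ 2 =
      ((Matrix.vandermonde (vq D)).transpose * Matrix.vandermonde (vq D)).det := by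
    rw [Matrix.det_mul, Matrix.det_transpose, sq]
  rw [h1, RingHom.map_det, h2, RingHom.map_det]
  congr 1
  ext i k
  rw [RingHom.mapMatrix_apply, RingHom.mapMatrix_apply, Matrix.map_apply, Matrix.map_apply,
    Algebra.traceMatrix_apply, Algebra.traceForm_apply, RingHom.comp_apply,
    trace_eq_sum_of_card (sigX L r) sigX_injective
      (by rw [← Nat.card_eq_fintype_card, finrank_LT]) (sigX_LT H D), Matrix.mul_apply, map_sum]
  refine (Fintype.sum_equiv (Finite.equivFin (X0 L r)).symm _ _ fun a => ?_).symm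
  rw [Matrix.transpose_apply, Matrix.vandermonde_apply, Matrix.vandermonde_apply, hβ, hβ, map_mul,
    map_mul, map_pow, map_pow, map_pow, map_pow, sigX_jM]
  rfl

theorem merAct_iota_LT (H : Haupt M r) (D : KLData L M r) {g : SL(2, ℤ)} (hg : (r : ℤ) ∣ g 1 0)
    (a : LT H D) : merAct g (iotaL L (algebraMap (LT H D) (FL L) a)) =
      iotaL L (algebraMap (LT H D) (FL L) a) := by
  have hq : IsX0 L r (g : QL L) := (isX0_mk D g).mpr hg
  have h := sigX_LT H D ⟨_, hq⟩ (q1 D) a
  rw [sigX_q1] at h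
  rw [← sigmaL_mk]
  exact h

theorem disc_notMem_Pr (D : KLData L M r) (A : ValuationSubring Kb) {l : ℕ} (hl : l.Prime)
    (hA : A.LiesOverPrime l) (hlM : ¬ l ∣ M) :
    (Matrix.vandermonde (vq D)).det ^ 2 ∉ Pr M (phiA A) := by
  intro h
  have h1 := Ideal.IsPrime.mem_of_pow_mem inferInstance _ h
  rw [Matrix.det_vandermonde, Ideal.IsPrime.prod_mem_iff] at h1
  obtain ⟨i, -, h2⟩ := h1
  rw [Ideal.IsPrime.prod_mem_iff] at h2
  obtain ⟨j, hj, h3⟩ := h2
  rw [mem_Pr, map_sub, sub_eq_zero] at h3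
  have h4 : rootOf (phiA A) D ((Finite.equivFin (X0 L r)).symm j).1 =
      rootOf (phiA A) D ((Finite.equivFin (X0 L r)).symm i).1 := by
    unfold rootOf
    rw [← xq_eq_out, ← xq_eq_out]
    exact h3
  have h5 := rootOf_injective (phiA A) D (phiA_natCast_ne_zero A hl hA hlM) h4
  have h6 : j = i := (Finite.equivFin (X0 L r)).symm.injective (Subtype.ext h5)
  rw [Finset.mem_Ioi] at hj
  exact absurd h6 hj.ne'

/-- **M-F** : hypothesis (R) of Theorem Z. -/
theorem exists_goodRed (H : Haupt M r) (D : KLData L M r) (A : ValuationSubring Kb) {l : ℕ}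
    (hl : l.Prime) (hA : A.LiesOverPrime l) (hlM : ¬ l ∣ M) :
    Nonempty (KL.GoodRed A (tauL H D) (FL L) (Fin (Nat.card (X0 L r)))) := by
  have hfin := finiteDimensional_LT H D
  obtain ⟨β, hβ⟩ := exists_basis H D
  have hiota := iota_det_traceMatrix H D β hβ
  have hinv : ∀ g : SL(2, ℤ), (r : ℤ) ∣ g 1 0 →
      g • (Matrix.vandermonde (vq D)).det ^ 2 = (Matrix.vandermonde (vq D)).det ^ 2 := by
    intro g hg
    apply aM_injective
    rw [aM_smul, ← hiota, merAct_iota_LT H D hg]
  obtain ⟨x', hx', -⟩ := exists_LT_of_invariant H D _ hinv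
  have hx : x' = (Algebra.traceMatrix (LT H D) β).det :=
    Subtype.ext ((iotaL L).injective (by rw [hx'.iota_eq]; exact hiota.symm))
  rw [hx] at hx'
  obtain ⟨g, -⟩ := KL.GoodRed.ofDet (A := A) (transcendental_tauL H D) (isGen_tauL H D) β
    (fun i => by rw [hβ]; exact pow_mem (jM_mem_VV H D A) _)
    (inv_mem_OG_of_corr H D A hinv hx' (disc_notMem_Pr D A hl hA hlM))
  exact ⟨g⟩

/-! ### M-H -/

theorem evE_C (H : Haupt M r) (D : KLData L M r) (A : ValuationSubring Kb) (a : A) :
    KL.evE A (tauL H D) (FL L) (C a) = algebraMap Kb (FL L) (a : Kb) := by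
  rw [KL.evE, RingHom.comp_apply, KL.evL, coe_eval₂RingHom, eval₂_C]
  rfl

/-- normal form of an element of the function field -/
theorem exists_normal_form (H : Haupt M r) (D : KLData L M r) (A : ValuationSubring Kb) {l : ℕ}
    (hl : l.Prime) (hA : A.LiesOverPrime l) (hlM : ¬ l ∣ M) (x : FL L) (hx : x ≠ 0) :
    ∃ (a : Kb) (S : (↥A)[X]) (z : FL L) (zA SA : LaurentSeries A), a ≠ 0 ∧ KL.redP A S ≠ 0 ∧
      z ∈ KL.VV A (tauL H D) (FL L) ∧ coeffMap A.subtype zA = (z : LaurentSeries Kb) ∧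
      coeffMap (IsLocalRing.residue A) zA ≠ 0 ∧
      coeffMap A.subtype SA = ((KL.evE A (tauL H D) (FL L) S : FL L) : LaurentSeries Kb) ∧
      KL.evE A (tauL H D) (FL L) S * x = algebraMap Kb (FL L) a * z := by
  have hfin := finiteDimensional_LT H D
  obtain ⟨β, hβ⟩ := exists_basis H D
  have hne : ∃ i, β.repr x i ≠ 0 := by
    by_contra h
    push Not at h
    apply hx
    rw [← β.sum_repr x]
    simp [h]
  obtain ⟨a, ha, S, P, hS, ⟨i0, hi0⟩, hP⟩ := KL.exists_scale_L_family (A := A)
    (transcendental_tauL H D) (isGen_tauL H D) (fun i => β.repr x i) hne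
  obtain ⟨t, ht1, ht2⟩ := (corr_tauF H D).exists_series A
  obtain ⟨j, hj1, hj2⟩ := D.corr.exists_series A
  refine ⟨a, S, ∑ i, KL.evE A (tauL H D) (FL L) (P i) * D.θF ^ (i : ℕ),
    ∑ i, evS A t (P i) * j ^ (i : ℕ), evS A t S, ha, hS, ?_, ?_, ?_,
    coeffMap_subtype_evS H D A ht1 S, ?_⟩
  · exact sum_mem fun i _ => mul_mem (KL.C0_le_VV A _ _ (KL.evE_mem_C0 A _ _ _))
      (pow_mem (jM_mem_VV H D A) _)
  · rw [map_sum, AddSubmonoidClass.coe_finsetSum]
    refine Finset.sum_congr rfl fun i _ => ?_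
    rw [map_mul, map_pow, coeffMap_subtype_evS H D A ht1, hj1]
    rfl
  · intro h0
    exact hi0 (indep_series H D A hl hA hlM ht2 hj2 P h0 i0)
  · conv_lhs => rw [← β.sum_repr x]
    rw [Finset.mul_sum, Finset.mul_sum]
    refine Finset.sum_congr rfl fun i _ => ?_
    rw [Algebra.smul_def, hβ, ← mul_assoc, KL.evE_apply, ← map_mul, hP i, map_mul,
      ← IsScalarTower.algebraMap_apply, KL.evE_apply, mul_assoc]

theorem quot_key (A : ValuationSubring Kb) {a : Kb} (ha : a ≠ 0) {b : A} (hb : (b : Kb) = a⁻¹)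
    {x S z : LaurentSeries Kb} {zA SA y1 y2 : LaurentSeries A}
    (hz : coeffMap A.subtype zA = z) (hS : coeffMap A.subtype SA = S)
    (hmul : x * coeffMap A.subtype y2 = coeffMap A.subtype y1)
    (heq : S * x = HahnSeries.C a * z) :
    coeffMap (IsLocalRing.residue A) zA * coeffMap (IsLocalRing.residue A) y2 =
      HahnSeries.C (IsLocalRing.residue A b) * coeffMap (IsLocalRing.residue A) SA *
        coeffMap (IsLocalRing.residue A) y1 := by
  have h1 : zA * y2 = HahnSeries.C b * SA * y1 := by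
    apply coeffMap_subtype_injective A
    rw [map_mul, map_mul, map_mul, hz, hS, ← hmul]
    have h2 : coeffMap A.subtype (HahnSeries.C b) = HahnSeries.C a⁻¹ := by
      show coeffMap A.subtype (HahnSeries.single 0 b) = _
      rw [coeffMap_single]
      show HahnSeries.single 0 (b : Kb) = _
      rw [hb]; rfl
    rw [h2, mul_assoc, ← mul_assoc S, heq, ← mul_assoc, ← mul_assoc, ← map_mul,
      inv_mul_cancel₀ ha, map_one, one_mul]
  have h3 := congrArg (coeffMap (IsLocalRing.residue A)) h1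
  rw [map_mul, map_mul, map_mul] at h3
  rw [h3]
  congr 2
  show coeffMap (IsLocalRing.residue A) (HahnSeries.single 0 b) = _
  rw [coeffMap_single]
  rfl

theorem quot_main (H : Haupt M r) (D : KLData L M r) (A : ValuationSubring Kb) {l : ℕ}
    (hl : l.Prime) (hA : A.LiesOverPrime l) (hlM : ¬ l ∣ M) (x : FL L) (hx : x ≠ 0)
    (y1 y2 : LaurentSeries A)
    (hmul : (x : LaurentSeries Kb) * coeffMap A.subtype y2 = coeffMap A.subtype y1)
    (h2 : coeffMap (IsLocalRing.residue A) y2 ≠ 0) :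
    ∃ (a : A) (y : FL L), y ∈ KL.VV A (tauL H D) (FL L) ∧
      x = KL.evE A (tauL H D) (FL L) (C a) * y ∧
      (coeffMap (IsLocalRing.residue A) y1 = 0 → a ∈ IsLocalRing.maximalIdeal A) := by
  obtain ⟨a, S, z, zA, SA, ha, hS, hzV, hz, hz0, hSA, heq⟩ :=
    exists_normal_form H D A hl hA hlM x hx
  have heq' : ((KL.evE A (tauL H D) (FL L) S : FL L) : LaurentSeries Kb) *
      (x : LaurentSeries Kb) = HahnSeries.C a * (z : LaurentSeries Kb) := by
    have h := congrArg (Subtype.val) heq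
    have h3 : ((algebraMap Kb (FL L) a : FL L) : LaurentSeries Kb) = HahnSeries.C a := by
      show algebraMap Kb (LaurentSeries Kb) a = _
      rw [algebraMap_laurent_eq_single]; rfl
    rw [← h3]
    exact h
  have key : ∀ b : A, (b : Kb) = a⁻¹ → IsLocalRing.residue A b ≠ 0 ∧
      coeffMap (IsLocalRing.residue A) y1 ≠ 0 := by
    intro b hb
    have h := quot_key A ha hb hz hSA hmul heq'
    have h0 : coeffMap (IsLocalRing.residue A) zA * coeffMap (IsLocalRing.residue A) y2 ≠ 0 :=
      mul_ne_zero hz0 h2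
    rw [h] at h0
    refine ⟨fun hb0 => h0 (by rw [hb0, map_zero, zero_mul, zero_mul]),
      fun hy => h0 (by rw [hy, mul_zero])⟩
  have haA : a ∈ A := by
    rcases A.mem_or_inv_mem a with h | h
    · exact h
    · have h3 := (key ⟨a⁻¹, h⟩ rfl).1
      rw [Ne, IsLocalRing.residue_eq_zero_iff, IsLocalRing.mem_maximalIdeal, mem_nonunits_iff,
        not_not] at h3
      obtain ⟨c, hc⟩ := h3.exists_right_inv
      have h4 : a⁻¹ * (c : Kb) = 1 := congrArg Subtype.val hc
      have h5 : (c : Kb) = a := by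
        field_simp at h4
        exact h4
      rw [← h5]; exact c.2
  have hS0 : KL.evL A (tauL H D) S ≠ 0 := KL.evL_ne_zero A (transcendental_tauL H D) hS
  refine ⟨⟨a, haA⟩, algebraMap (LT H D) (FL L) (KL.evL A (tauL H D) S)⁻¹ * z,
    mul_mem (KL.algebraMap_mem_VV A (transcendental_tauL H D)
      (KL.inv_evL_mem_OG A (transcendental_tauL H D) hS)) hzV, ?_, ?_⟩
  · rw [evE_C, mul_left_comm, ← heq, KL.evE_apply, ← mul_assoc, ← map_mul, inv_mul_cancel₀ hS0,
      map_one, one_mul]
  · intro hy1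
    rw [IsLocalRing.mem_maximalIdeal, mem_nonunits_iff]
    intro hu
    obtain ⟨c, hc⟩ := hu.exists_right_inv
    have h4 : a * (c : Kb) = 1 := congrArg Subtype.val hc
    exact (key c (eq_inv_of_mul_eq_one_right h4)).2 hy1

/-- **M-H** -/
theorem smV_of_quot (H : Haupt M r) (D : KLData L M r) (A : ValuationSubring Kb) {l : ℕ}
    (hl : l.Prime) (hA : A.LiesOverPrime l) (hlM : ¬ l ∣ M) (x : FL L) (y1 y2 : LaurentSeries A)
    (hmul : (x : LaurentSeries Kb) * coeffMap A.subtype y2 = coeffMap A.subtype y1)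
    (h1 : coeffMap (IsLocalRing.residue A) y1 = 0)
    (h2 : coeffMap (IsLocalRing.residue A) y2 ≠ 0) :
    KL.SmV A (tauL H D) (FL L) x := by
  by_cases hx : x = 0
  · exact ⟨0, zero_mem _, 0, zero_mem _, by rw [hx, mul_zero]⟩
  · obtain ⟨a, y, hy, hxy, ha⟩ := quot_main H D A hl hA hlM x hx y1 y2 hmul h2
    exact ⟨a, ha h1, y, hy, hxy⟩

/-- **M-H** -/
theorem mem_VV_of_quot (H : Haupt M r) (D : KLData L M r) (A : ValuationSubring Kb) {l : ℕ}
    (hl : l.Prime) (hA : A.LiesOverPrime l) (hlM : ¬ l ∣ M) (x : FL L) (y1 y2 : LaurentSeries A)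
    (hmul : (x : LaurentSeries Kb) * coeffMap A.subtype y2 = coeffMap A.subtype y1)
    (h2 : coeffMap (IsLocalRing.residue A) y2 ≠ 0) :
    x ∈ KL.VV A (tauL H D) (FL L) := by
  by_cases hx : x = 0
  · rw [hx]; exact zero_mem _
  · obtain ⟨a, y, hy, hxy, -⟩ := quot_main H D A hl hA hlM x hx y1 y2 hmul h2
    rw [hxy]
    exact mul_mem (KL.C0_le_VV A _ _ (KL.evE_mem_C0 A _ _ _)) hy

end Fermat.Agent.S48.M.KLL
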