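import Fermat.Agent.S18.Z.Main
import Fermat.Agent.S48.M.KL.Good
import Fermat.Agent.S48.M.KL.Branch
import Fermat.Agent.S18.Haupt
import Fermat.Agent.S18.Arch
import Fermat.Agent.S18.KLAll

/-!
# S48 / M / KL : (KL) at a level `L` with `L.Γ ≤ Γ₀(r)`, `r ∈ {2, 3}`, from a `KLData L M r`
(port of `S18/KLAll.lean`, `kl_level`; helper27)
-/

set_option autoImplicit false
set_option synthInstance.maxHeartbeats 400000
set_option linter.unusedSectionVars false

open ModularCurve AlgebraicCurve IntermediateField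

noncomputable section

namespace Fermat.Agent.S48.M.KLL

open Fermat.Agent.S24 Fermat.Agent.S18 Fermat.Agent.S18.KLAllAux

/-- (KL) at a level `L` contained in `Γ₀(r)` -/
theorem kl_levelL {L : Lvl} {M : ℕ} [NeZero M] {r : ℕ} (D : KLData L M r) (hr : r = 2 ∨ r = 3)
    {ℓ : ℕ} (hℓ : ℓ.Prime) (hℓM : ¬ ℓ ∣ M) (A : ValuationSubring Kb) (hA : A.LiesOverPrime ℓ) :
    KLStatementL L ℓ A := by
  intro p hp hpl f hf hdiv hcong
  obtain ⟨y1, y2, _, _, hmul, hred, hy2⟩ := hcong
  have hrM : r ∣ M := D.hrn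
  have : NeZero r := ⟨by rcases hr with rfl | rfl <;> norm_num⟩
  have hrp : r.Prime := by rcases hr with rfl | rfl <;> norm_num
  have hrl : ¬ ℓ ∣ r := fun h => hℓM (h.trans hrM)
  have hpl' : ¬ ℓ ∣ p := fun h => hpl ((Nat.prime_dvd_prime_iff_eq hℓ hp).mp h).symm
  let H : Haupt M r := haupt M r hr hrM
  have hfin := finiteDimensional_LT H D
  obtain ⟨G⟩ := exists_goodRed H D A hℓ hA hℓM
  obtain ⟨c0, hc0, hbr⟩ := exists_unit_Br hr hrM H A (inv_natCast_mem A hℓ hA hrl)
    (tauF H D) (corr_tauF H D).iota_eq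
  have hy1 : coeffMap (IsLocalRing.residue A) y1 ≠ 0 := by rw [hred]; exact hy2
  have hy2' : coeffMap A.subtype y2 ≠ 0 := by
    intro h
    apply hy2
    have : y2 = 0 := coeffMap_subtype_injective A (h.trans (map_zero _).symm)
    rw [this, map_zero]
  have hf' : (f : LaurentSeries Kb) ≠ 0 := by simpa using hf
  have h1 : KL.SmV A (tauL H D) (FL L) (f - 1) :=
    smV_of_quot H D A hℓ hA hℓM (f - 1) (y1 - y2) y2
      (by
        rw [map_sub, ← hmul]
        push_cast
        ring)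
      (by rw [map_sub, hred, sub_self]) hy2
  have h2 : KL.SmV A (tauL H D) (FL L) (f⁻¹ - 1) :=
    smV_of_quot H D A hℓ hA hℓM (f⁻¹ - 1) (y2 - y1) y1
      (by
        rw [map_sub, ← hmul]
        push_cast
        field_simp)
      (by rw [map_sub, hred, sub_self]) hy1
  exact KL.theoremZ A (Arch.arch A hℓ hA) (tauL H D) (transcendental_tauL H D)
    (isGen_tauL H D) G c0 hc0 hbr p hp (inv_natCast_mem A hℓ hA hpl') f hf hdiv h1 h2

end Fermat.Agent.S48.M.KLL
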