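import Fermat.Agent.S48.M.KL.FldIF
import Fermat.Agent.S48.M.G1
import Fermat.Agent.S48.M.Eis.Zpw
import Fermat.Agent.S18.BranchInt

/-!
# S48 / M / KL : the primitive element, function field side   [key S48/M-KL-PF]

`thA M R = y_(0,1) + j(M R z) ∈ S28.AL (M R)` comes from an element of `FL (lvG M R)`.

RECIPE.
* `exists_iotaL_jHd`: `x = ratL L (qExpand ℚ d jq) _` (a generator: `gens_le`, left part of `gensG`), `iotaL_ratL L _ _ (jQ d) (phiS_jQ d)`,
  `phiH_jQ d` (S24/IotaRing.lean).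
* `exists_iotaL_wH`: the same with `exists_wQ M b 1` (IfEis.lean), right part of `gensG` with `e = 1`.
* `sum_zpw`: orthogonality `∑_b ζ^b ζ^(-(a b)) = M [a = 1]` (`zpw M t = exp(2πi/M)^(t.val)`; geometric sum, or
  `ZMod` additive characters; helper21's `S48.Z.sum_ez` may help).
* `yA_eq_sum`: `v = (0,1) ≠ 0` for `M ≠ 1`: `yA_apply`, definition of `VE`, `sum_zpw`, `scaleH 1 τ = τ`:
  `M⁴ QE (0,1) = (M³/120) ∑_b ζ^b VE b`.
* `exists_iotaL_yA`: `M = 1`: `![0,1] = 0` (`Subsingleton (ZMod 1)`), `yA = 0` (`yA_apply`), `x = 0`.  `M ≠ 1`: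
  `x = ∑_b algebraMap Kb _ c_b * x_b`, `kappa c_b = (M³/120) ζ^b` (`S24.exists_kappa_eq` for the integral element `ζ^b`, times
  the rational number), `iotaL_algebraMap`.
-/

set_option autoImplicit false

open UpperHalfPlane ModularForm ModularCurve CongruenceSubgroup
open scoped MatrixGroups Real

noncomputable section

namespace Fermat.Agent.S48.M.KLL

open Fermat.Agent.S24 Fermat.Agent.S28

variable (M R : ℕ) [NeZero M] [NeZero R]

/-- the primitive element -/
def thA : AL (M * R) := yA M (M * R) (dvd_mul_right M R) ![0, 1] + jA (M * R) (M * R) dvd_rfl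

theorem exists_iotaL_jHd (d : ℕ) [NeZero d] (hd : d ∣ M * R) :
    ∃ x : FL (lvG M R), iotaL (lvG M R) x = algebraMap Hol Mer (jHd d) := by
  have hmem : qExpand ℚ d jq ∈ (lvG M R).gens := Or.inl ⟨d, inferInstance, hd, rfl⟩
  refine ⟨ratL (lvG M R) (qExpand ℚ d jq) (gens_le (lvG M R) hmem), ?_⟩
  rw [iotaL_ratL (lvG M R) _ _ (jQ d) (phiS_jQ d), phiH_jQ]

theorem exists_iotaL_wH (b : ZMod M) :
    ∃ x : FL (lvG M R), iotaL (lvG M R) x = algebraMap Hol Mer (wH M b 1) := by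
  obtain ⟨y, hy1, hy2⟩ := exists_wQ M b 1
  have hmem : qExpand ℚ 1 (wS M b) ∈ (lvG M R).gens :=
    Or.inr ⟨1, inferInstance, b, one_dvd R, rfl⟩
  refine ⟨ratL (lvG M R) (qExpand ℚ 1 (wS M b)) (gens_le (lvG M R) hmem), ?_⟩
  rw [iotaL_ratL (lvG M R) _ _ y hy1, hy2]

theorem sum_zpw (a : ZMod M) :
    ∑ b : ZMod M, zpw M b * zpw M (-(a * b)) = if a = 1 then (M : ℂ) else 0 := by
  have h := sum_zpw_mul M (1 - a)
  have e : ∀ b : ZMod M, zpw M b * zpw M (-(a * b)) = zpw M ((1 - a) * b) := by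
    intro b
    rw [← zpw_add]
    congr 1
    ring
  rw [Finset.sum_congr rfl fun b _ => e b, h]
  have : (1 - a = 0) ↔ a = 1 := by rw [sub_eq_zero, eq_comm]
  simp only [this]

theorem yA_eq_sum (hM : M ≠ 1) (n : ℕ) [NeZero n] (hMn : M ∣ n) :
    (yA M n hMn ![0, 1]).1 =
      ∑ b : ZMod M, algebraMap ℂ Hol ((M : ℂ) ^ 3 / 120 * zpw M b) * wH M b 1 := by
  have hne : (![0, 1] : Fin 2 → ZMod M) ≠ 0 := by
    intro h
    have h1 : (1 : ZMod M) = 0 := congrFun h 1
    have : Fact (1 < M) := ⟨by have := NeZero.pos M; omega⟩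
    exact one_ne_zero h1
  apply Subtype.ext
  funext τ
  rw [yA_apply, if_neg hne]
  have e1 : ((∑ b : ZMod M, algebraMap ℂ Hol ((M : ℂ) ^ 3 / 120 * zpw M b) * wH M b 1 : Hol) :
      ℍ → ℂ) τ = ∑ b : ZMod M, ((M : ℂ) ^ 3 / 120 * zpw M b) *
        (VE M b τ * E₄ τ ^ 2 / discriminant τ) := by
    rw [AddSubmonoidClass.coe_finsetSum, Finset.sum_apply]
    refine Finset.sum_congr rfl fun b _ => ?_
    change ((M : ℂ) ^ 3 / 120 * zpw M b) * (VE M b (scaleH 1 τ) * E₄ (scaleH 1 τ) ^ 2 /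
      discriminant (scaleH 1 τ)) = _
    rw [scaleH_one]
  rw [e1]
  have e2 : ∑ b : ZMod M, zpw M b * VE M b τ = 120 * ((M : ℂ) * QE M ![0, 1] τ) := by
    simp only [VE]
    have : ∀ b : ZMod M, zpw M b * (120 * ∑ a : ZMod M, zpw M (-(a * b)) * QE M ![0, a] τ) =
        120 * ∑ a : ZMod M, (zpw M b * zpw M (-(a * b))) * QE M ![0, a] τ := by
      intro b
      rw [Finset.mul_sum, Finset.mul_sum, Finset.mul_sum]
      refine Finset.sum_congr rfl fun a _ => ?_
      ring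
    rw [Finset.sum_congr rfl fun b _ => this b, ← Finset.mul_sum, Finset.sum_comm]
    congr 1
    simp only [← Finset.sum_mul, sum_zpw]
    rw [Finset.sum_eq_single 1]
    · rw [if_pos rfl]
    · intro a _ ha
      rw [if_neg ha, zero_mul]
    · intro h
      exact absurd (Finset.mem_univ _) h
  have e3 : ∑ b : ZMod M, ((M : ℂ) ^ 3 / 120 * zpw M b) * (VE M b τ * E₄ τ ^ 2 / discriminant τ) =
      ((M : ℂ) ^ 3 / 120) * (∑ b : ZMod M, zpw M b * VE M b τ) * (E₄ τ ^ 2 / discriminant τ) := by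
    rw [Finset.mul_sum, Finset.sum_mul]
    refine Finset.sum_congr rfl fun b _ => ?_
    ring
  rw [e3, e2]
  ring


theorem exists_iotaL_yA : ∃ x : FL (lvG M R), iotaL (lvG M R) x =
    algebraMap Hol Mer (yA M (M * R) (dvd_mul_right M R) ![0, 1]).1 := by
  by_cases hM : M = 1
  · have hs : Subsingleton (ZMod M) := ZMod.subsingleton_iff.2 hM
    have h0 : (yA M (M * R) (dvd_mul_right M R) ![0, 1]).1 = 0 := by
      apply Subtype.ext
      funext τ
      rw [yA_apply, if_pos (Subsingleton.elim _ _)]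
      rfl
    exact ⟨0, by rw [h0, map_zero, map_zero]⟩
  · choose x hx using exists_iotaL_wH M R
    choose a ha using fun b : ZMod M => S18.Branch.exists_kappa_eq (zpw M b) (isIntegral_zpw M b)
    refine ⟨∑ b : ZMod M, algebraMap Kb (FL (lvG M R)) ((M : Kb) ^ 3 / 120 * a b) * x b, ?_⟩
    rw [yA_eq_sum M hM, map_sum, map_sum]
    refine Finset.sum_congr rfl fun b _ => ?_
    have hk : kappa ((M : Kb) ^ 3 / 120 * a b) = (M : ℂ) ^ 3 / 120 * zpw M b := by
      rw [map_mul, map_div₀, map_pow, map_natCast, (ha b).1, map_ofNat]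
    rw [map_mul (iotaL (lvG M R)), map_mul (algebraMap Hol Mer), iotaL_algebraMap, hx, hk,
      ← IsScalarTower.algebraMap_apply ℂ Hol Mer]

theorem exists_iotaL_thA :
    ∃ x : FL (lvG M R), iotaL (lvG M R) x = algebraMap Hol Mer (thA M R).1 := by
  obtain ⟨x, hx⟩ := exists_iotaL_yA M R
  obtain ⟨y, hy⟩ := exists_iotaL_jHd M R (M * R) dvd_rfl
  refine ⟨x + y, ?_⟩
  rw [RingHom.map_add, hx, hy, ← RingHom.map_add]
  rfl

end Fermat.Agent.S48.M.KLL
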