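import Fermat.Agent.S48.M.KL.Corr
import Fermat.Agent.S18.ModAux
import Fermat.Agent.S18.Z.Defs
import Fermat.Agent.S24.Embed

/-!
# S48 / M / KL : the Hauptmodul inside `FL L`, the base field `Kb(t)`  (port of `S18/ModTau.lean`; helper27)

`tauF H D : FL L` is the Hauptmodul, `LT H D = Kb⟮tauF⟯`, `tauL H D : LT H D` the generator
(this is the `τ` of Theorem Z).
-/

set_option autoImplicit false
set_option synthInstance.maxHeartbeats 400000
set_option linter.unusedSectionVars false

open UpperHalfPlane ModularForm EisensteinSeries ModularCurve Polynomial IntermediateField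
open scoped MatrixGroups Manifold Real

noncomputable section

namespace Fermat.Agent.S48.M.KLL

open Fermat.Agent.S24 Fermat.Agent.S28 Fermat.Agent.S18

variable {L : Lvl} {M r : ℕ} [NeZero M]

theorem exists_tau (H : Haupt M r) (D : KLData L M r) : ∃ x : FL L, CorrL L M x H.tA :=
  D.exists_corr H.tA fun g hg => H.smul_tA g (D.le g hg)

/-- the Hauptmodul as an element of the function field -/
def tauF (H : Haupt M r) (D : KLData L M r) : FL L := (exists_tau H D).choose

theorem corr_tauF (H : Haupt M r) (D : KLData L M r) : CorrL L M (tauF H D) H.tA :=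
  (exists_tau H D).choose_spec

/-- the base field `Kb(t)` -/
abbrev LT (H : Haupt M r) (D : KLData L M r) : IntermediateField Kb (FL L) := Kb⟮tauF H D⟯

/-- the generator of the base field -/
def tauL (H : Haupt M r) (D : KLData L M r) : LT H D := AdjoinSimple.gen Kb (tauF H D)

theorem algebraMap_tauL (H : Haupt M r) (D : KLData L M r) :
    algebraMap (LT H D) (FL L) (tauL H D) = tauF H D := rfl

/-- the cosets of `Γ₀(r)` modulo `L.Γ` -/
def X0 (L : Lvl) (r : ℕ) : Type := {q : QL L // (r : ℤ) ∣ (q.out : SL(2, ℤ)) 1 0}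

instance : Finite (X0 L r) := by
  have : Finite (QL L) := finite_QL L
  exact Subtype.finite

theorem coeff_tauF (H : Haupt M r) (D : KLData L M r) (n : ℤ) :
    (tauF H D : LaurentSeries Kb).coeff n = zk ((eps M H.tA).coeff ((M : ℤ) * n)) := by
  rw [← qExpand_coeff_mul M, (corr_tauF H D).qexp_eq, coeffMap_coeff]

theorem coeff_tauF_neg_one (H : Haupt M r) (D : KLData L M r) :
    (tauF H D : LaurentSeries Kb).coeff (-1) = 1 := by
  rw [coeff_tauF, show (M : ℤ) * -1 = -(M : ℤ) by ring, H.coeff_eps, map_one]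

theorem coeff_tauF_of_lt (H : Haupt M r) (D : KLData L M r) {n : ℤ} (hn : n < -1) :
    (tauF H D : LaurentSeries Kb).coeff n = 0 := by
  rw [coeff_tauF, H.coeff_eps_lt, map_zero]
  have hM : (0 : ℤ) < M := by exact_mod_cast Nat.pos_of_ne_zero (NeZero.ne M)
  nlinarith

theorem coeff_tauF_mem (H : Haupt M r) (D : KLData L M r) (A : ValuationSubring Kb) (n : ℤ) :
    (tauF H D : LaurentSeries Kb).coeff n ∈ A := by
  rw [coeff_tauF]; exact zk_mem A _

theorem order_tauF (H : Haupt M r) (D : KLData L M r) : (tauF H D : LaurentSeries Kb).order = -1 := by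
  have h0 : (tauF H D : LaurentSeries Kb) ≠ 0 := by
    intro h
    have := coeff_tauF_neg_one H D
    rw [h] at this
    simp at this
  apply le_antisymm
  · apply HahnSeries.order_le_of_coeff_ne_zero
    rw [coeff_tauF_neg_one]; exact one_ne_zero
  · by_contra hlt
    push Not at hlt
    have := coeff_tauF_of_lt H D hlt
    exact h0 (HahnSeries.coeff_order_eq_zero.mp this)

theorem transcendental_tauF (H : Haupt M r) (D : KLData L M r) : Transcendental Kb (tauF H D) := by
  have h := transcendental_of_order_neg (x := (tauF H D : LaurentSeries Kb))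
    (by rw [order_tauF]; norm_num)
  intro halg
  apply h
  exact (isAlgebraic_algebraMap_iff
    (algebraMap (FL L) (LaurentSeries Kb)).injective).mpr halg

theorem transcendental_tauL (H : Haupt M r) (D : KLData L M r) : Transcendental Kb (tauL H D) := by
  intro halg
  apply transcendental_tauF H D
  exact (isAlgebraic_algebraMap_iff
    (algebraMap (LT H D) (FL L)).injective).mpr halg

theorem isGen_tauL (H : Haupt M r) (D : KLData L M r) : KL.IsGen Kb (tauL H D) := by
  intro x
  obtain ⟨P, Q, hx⟩ := (IntermediateField.mem_adjoin_simple_iff Kb (x : FL L)).mp x.2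
  have hco : ∀ R : Kb[X], ((aeval (tauL H D) R : LT H D) : FL L) = aeval (tauF H D) R := by
    intro R
    exact (Polynomial.aeval_algebraMap_apply (FL L) (tauL H D) R).symm
  by_cases hQ : aeval (tauF H D) Q = 0
  · refine ⟨0, 1, one_ne_zero, ?_⟩
    rw [hQ, div_zero] at hx
    have : x = 0 := Subtype.ext hx
    simp [this]
  · refine ⟨P, Q, fun h => hQ (by rw [h, map_zero]), Subtype.ext ?_⟩
    show (x : FL L) * ((aeval (tauL H D) Q : LT H D) : FL L) = _
    rw [hco, hco, hx, div_mul_cancel₀ _ hQ]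

theorem tA_ne_zero (H : Haupt M r) : H.tA ≠ 0 := by
  intro h
  have := H.coeff_eps
  rw [h, map_zero] at this
  simp at this

theorem coe_aeval_tauL (H : Haupt M r) (D : KLData L M r) (R : Kb[X]) :
    ((aeval (tauL H D) R : LT H D) : FL L) = aeval (tauF H D) R :=
  (Polynomial.aeval_algebraMap_apply (FL L) (tauL H D) R).symm

/-- `Γ₀(r)`-invariant elements of `AL M` lie in `Kb(t)` (M-D). -/
theorem exists_LT_of_invariant (H : Haupt M r) (D : KLData L M r) (f : AL M)
    (hf : ∀ g : SL(2, ℤ), (r : ℤ) ∣ g 1 0 → g • f = f) :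
    ∃ x : LT H D, CorrL L M (x : FL L) f ∧ ∃ (b : ℕ) (P : Zb[X]),
      x * tauL H D ^ b = aeval (tauL H D) (P.map zk) ∧
      f * H.tA ^ b = P.eval₂ (cA M) H.tA := by
  obtain ⟨b, P, hP⟩ := H.exists_poly f hf
  have h0 : tauL H D ≠ 0 := by
    intro h
    exact transcendental_tauL H D (h ▸ isAlgebraic_zero)
  refine ⟨aeval (tauL H D) (P.map zk) / tauL H D ^ b, ?_, b, P,
    div_mul_cancel₀ _ (pow_ne_zero b h0), hP⟩
  have h1 := ((corr_tauF H D).eval₂ P).div ((corr_tauF H D).pow b)
    (pow_ne_zero b (tA_ne_zero H)) hP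
  have h2 : ((aeval (tauL H D) (P.map zk) / tauL H D ^ b : LT H D) : FL L) =
      aeval (tauF H D) (P.map zk) / tauF H D ^ b := by
    rw [← coe_aeval_tauL]; rfl
  rw [h2]; exact h1

theorem jN_mem_LT (H : Haupt M r) (D : KLData L M r) : jL L ∈ LT H D := by
  obtain ⟨x, hx, -⟩ := exists_LT_of_invariant H D (jA M 1 (one_dvd M))
    (fun g _ => smul_jA_one M g)
  have : jL L = (x : FL L) := (CorrL.jL).unique_left hx
  rw [this]; exact x.2

theorem adjoin_jN_le (H : Haupt M r) (D : KLData L M r) : Kb⟮jL L⟯ ≤ LT H D := by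
  rw [IntermediateField.adjoin_simple_le_iff]
  exact jN_mem_LT H D

theorem finiteDimensional_LT (H : Haupt M r) (D : KLData L M r) :
    FiniteDimensional (LT H D) (FL L) := by
  have h := adjoin_jN_le H D
  have := finiteDimensional_FL L
  let _ : Algebra Kb⟮jL L⟯ (LT H D) := (IntermediateField.inclusion h).toRingHom.toAlgebra
  have : IsScalarTower Kb⟮jL L⟯ (LT H D) (FL L) := IsScalarTower.of_algebraMap_eq fun x => rfl
  exact Module.Finite.of_restrictScalars_finite Kb⟮jL L⟯ (LT H D) (FL L)


theorem mem_Gamma0_iff {n : ℕ} {g : SL(2, ℤ)} :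
    g ∈ CongruenceSubgroup.Gamma0 n ↔ (n : ℤ) ∣ g 1 0 := by
  rw [CongruenceSubgroup.Gamma0_mem, ZMod.intCast_zmod_eq_zero_iff_dvd]

theorem Gamma0_le (D : KLData L M r) : L.Γ ≤ CongruenceSubgroup.Gamma0 r := by
  intro g hg
  rw [mem_Gamma0_iff]
  exact D.le g hg

/-- membership of a coset in `Γ₀(r)/L.Γ` -/
def IsX0 (L : Lvl) (r : ℕ) (q : QL L) : Prop := (r : ℤ) ∣ (q.out : SL(2, ℤ)) 1 0

theorem isX0_mk (D : KLData L M r) (g : SL(2, ℤ)) : IsX0 L r (g : QL L) ↔ (r : ℤ) ∣ g 1 0 := by
  obtain ⟨h, hh⟩ := QuotientGroup.mk_out_eq_mul (L.Γ) g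
  unfold IsX0
  rw [hh, ← mem_Gamma0_iff, ← mem_Gamma0_iff]
  exact Subgroup.mul_mem_cancel_right _ (Gamma0_le D h.2)

theorem isX0_smul (D : KLData L M r) {g : SL(2, ℤ)} (hg : (r : ℤ) ∣ g 1 0) (q : QL L) :
    IsX0 L r (g • q) ↔ IsX0 L r q := by
  induction q using QuotientGroup.induction_on with
  | H g' =>
    have : g • (g' : QL L) = ((g * g' : SL(2, ℤ)) : QL L) := rfl
    rw [this, isX0_mk D, isX0_mk D, ← mem_Gamma0_iff, ← mem_Gamma0_iff]
    exact Subgroup.mul_mem_cancel_left _ (mem_Gamma0_iff.mpr hg)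

theorem isX0_one (D : KLData L M r) : IsX0 L r ((1 : SL(2, ℤ)) : QL L) := by
  rw [isX0_mk D]; simp

/-- the embeddings over `Kb(t)` -/
def sigX (L : Lvl) (r : ℕ) (q : X0 L r) : FL L →+* Mer := sigmaL L q.1

theorem sigX_injective : Function.Injective (sigX L r) := fun _ _ h =>
  Subtype.ext (sigmaL_injective L h)

theorem sigma_of_corr {x : FL L} {f : AL M} (h : CorrL L M x f) (q : QL L) :
    sigmaL L q x = algebraMap Hol Mer (q.out • f : AL M).1 := by
  conv_lhs => rw [← QuotientGroup.out_eq' q]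
  exact h.sigma q.out

theorem sigX_tauF (H : Haupt M r) (D : KLData L M r) (q : X0 L r) :
    sigX L r q (tauF H D) = algebraMap Hol Mer H.tA.1 := by
  show sigmaL L q.1 _ = _
  rw [sigma_of_corr (corr_tauF H D), H.smul_tA _ q.2]

theorem sigX_algebraMap (q : X0 L r) (a : Kb) :
    sigX L r q (algebraMap Kb (FL L) a) = algebraMap ℂ Mer (kappa a) := sigmaL_eq_const L q.1 a

theorem sigX_LT (H : Haupt M r) (D : KLData L M r) (q q' : X0 L r) (a : LT H D) :
    sigX L r q (algebraMap (LT H D) (FL L) a) = sigX L r q' (algebraMap (LT H D) (FL L) a) :=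
  eq_on_adjoin (K := Kb) (tauF H D) _ _
    (fun a => by rw [sigX_algebraMap, sigX_algebraMap]) (by rw [sigX_tauF, sigX_tauF]) a

theorem card_X0_le_finrank (H : Haupt M r) (D : KLData L M r) :
    Nat.card (X0 L r) ≤ Module.finrank (LT H D) (FL L) :=
  card_le_finrank_of_embeddings (tauF H D) (finiteDimensional_LT H D) (sigX L r)
    sigX_injective (fun i j a => by rw [sigX_algebraMap, sigX_algebraMap])
    (fun i j => by rw [sigX_tauF, sigX_tauF])

theorem sigma_jM_injective (D : KLData L M r) :
    Function.Injective fun q : QL L => sigmaL L q (D.θF) := by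
  intro q q' h
  induction q using QuotientGroup.induction_on with
  | H g =>
    induction q' using QuotientGroup.induction_on with
    | H g' =>
      simp only [sigmaL_mk] at h
      rw [QuotientGroup.eq]
      apply D.mem_of_smul_eq
      apply Subtype.ext
      apply IsFractionRing.injective Hol Mer
      have h5 : ∀ k : SL(2, ℤ), algebraMap Hol Mer (k • D.θA : AL M).1 = merAct k (iotaL L D.θF) := by
        intro k
        rw [D.corr.iota_eq, merAct_algebraMap]
        rfl
      rw [h5, merAct_mul, ← h, ← merAct_mul, inv_mul_cancel, merAct_one, D.corr.iota_eq]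
      rfl

theorem adjoin_jM_eq_top (D : KLData L M r) : (Kb⟮jL L⟯)⟮D.θF⟯ = ⊤ := by
  have hfin := finiteDimensional_FL L
  have : Finite (QL L) := finite_QL L
  have hint : IsIntegral Kb⟮jL L⟯ (D.θF) := IsIntegral.of_finite _ _
  have h1 := card_le_natDegree_minpoly (E := Kb⟮jL L⟯) (D.θF) hint (sigmaL L)
    (fun i j a => eq_on_adjoin (K := Kb) (jL L) _ _
      (fun a => by rw [sigmaL_eq_const, sigmaL_eq_const]) (by rw [sigmaL_jL, sigmaL_jL]) a)
    (sigma_jM_injective D)
  rw [← IntermediateField.adjoin.finrank hint, ← finrank_FL L] at h1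
  apply IntermediateField.eq_of_le_of_finrank_le le_top
  rw [IntermediateField.finrank_top']
  exact h1

theorem adjoin_LT_jM_eq_top (H : Haupt M r) (D : KLData L M r) :
    (LT H D)⟮D.θF⟯ = ⊤ := by
  rw [eq_top_iff]
  intro y _
  have hy : y ∈ (Kb⟮jL L⟯)⟮D.θF⟯ := by rw [adjoin_jM_eq_top D]; trivial
  have h1 : y ∈ ((Kb⟮jL L⟯)⟮D.θF⟯).restrictScalars Kb := hy
  rw [IntermediateField.adjoin_adjoin_left] at h1
  have h2 : IntermediateField.adjoin Kb ({jL L} ∪ {D.θF} : Set (FL L)) ≤
      ((LT H D)⟮D.θF⟯).restrictScalars Kb := by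
    rw [IntermediateField.adjoin_le_iff]
    rintro z (hz | hz)
    · rw [Set.mem_singleton_iff] at hz
      rw [hz]
      exact IntermediateField.algebraMap_mem ((LT H D)⟮D.θF⟯)
        (⟨jL L, jN_mem_LT H D⟩ : LT H D)
    · rw [Set.mem_singleton_iff] at hz
      rw [hz]
      exact IntermediateField.mem_adjoin_simple_self (LT H D) _
  exact h2 h1

/-! ### the characteristic polynomial of `j_M` over `Kb(t)` -/

theorem smul_jM_of_mem (D : KLData L M r) : ∀ k ∈ L.Γ, k • D.θA = D.θA := D.inv

/-- the conjugates of `j_M` -/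
def xq (D : KLData L M r) : QL L → AL M := Lag.orb _ (D.θA) (smul_jM_of_mem D)

theorem xq_smul (D : KLData L M r) (g : SL(2, ℤ)) (q : QL L) : xq D (g • q) = g • xq D q := Lag.orb_smul _ _ _ g q

theorem xq_one (D : KLData L M r) : xq D ((1 : SL(2, ℤ)) : QL L) = D.θA := by
  show (1 : SL(2, ℤ)) • D.θA = _
  rw [one_smul]

theorem xq_eq_out (D : KLData L M r) (q : QL L) : xq D q = q.out • D.θA := Lag.orb_eq_out _ _ _ q

instance fintypeQN (L : Lvl) : Fintype (QL L) :=
  have : Finite (QL L) := finite_QL L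
  Fintype.ofFinite _

open Classical in
/-- the characteristic polynomial of `j_M` over `Kb(t)`, in `AL M` -/
def chiA (D : KLData L M r) : (AL M)[X] :=
  ∏ q : QL L, if IsX0 L r q then (X - C (xq D q)) else 1

theorem chiA_monic (D : KLData L M r) : (chiA D).Monic := by
  classical
  refine monic_prod_of_monic _ _ fun q _ => ?_
  split_ifs
  · exact monic_X_sub_C _
  · exact monic_one

theorem natDegree_chiA (D : KLData L M r) : (chiA D).natDegree = Nat.card (X0 L r) := by
  classical
  rw [chiA, natDegree_prod_of_monic]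
  · have h1 : ∀ q : QL L, (if IsX0 L r q then (X - C (xq D q)) else (1 : (AL M)[X])).natDegree =
        if IsX0 L r q then 1 else 0 := by
      intro q
      split_ifs
      · exact natDegree_X_sub_C _
      · exact natDegree_one
    simp only [h1]
    rw [Finset.sum_boole, Nat.cast_id]
    show _ = Nat.card {q : QL L // IsX0 L r q}
    rw [Nat.card_eq_fintype_card, Fintype.card_subtype]
  · intro q _
    split_ifs
    · exact monic_X_sub_C _
    · exact monic_one

theorem chiA_map (D : KLData L M r) {g : SL(2, ℤ)} (hg : (r : ℤ) ∣ g 1 0) :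
    (chiA D).map (MulSemiringAction.toRingHom SL(2, ℤ) (AL M) g) = chiA D := by
  classical
  rw [chiA, Polynomial.map_prod]
  refine Fintype.prod_equiv (MulAction.toPerm g) _ _ fun q => ?_
  rw [MulAction.toPerm_apply]
  by_cases h : IsX0 L r q
  · rw [if_pos h, if_pos ((isX0_smul D hg q).mpr h), Polynomial.map_sub, map_X, map_C, xq_smul]
    rfl
  · rw [if_neg h, if_neg (fun h' => h ((isX0_smul D hg q).mp h')), Polynomial.map_one]

theorem smul_coeff_chiA (D : KLData L M r) (n : ℕ) (g : SL(2, ℤ)) (hg : (r : ℤ) ∣ g 1 0) :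
    g • (chiA D).coeff n = (chiA D).coeff n := by
  conv_rhs => rw [← chiA_map D hg, coeff_map]
  rfl

theorem eval_chiA (D : KLData L M r) : (chiA D).eval (D.θA) = 0 := by
  classical
  rw [chiA, eval_prod]
  refine Finset.prod_eq_zero (Finset.mem_univ ((1 : SL(2, ℤ)) : QL L)) ?_
  rw [if_pos (isX0_one D), xq_one, eval_sub, eval_X, eval_C, sub_self]

/-- the characteristic polynomial of `j_M` over `Kb(t)` -/
theorem exists_chiL (H : Haupt M r) (D : KLData L M r) : ∃ p : (LT H D)[X], p.Monic ∧
    p.natDegree = Nat.card (X0 L r) ∧ aeval (D.θF) p = 0 ∧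
    ∀ i, CorrL L M ((p.coeff i : LT H D) : FL L) ((chiA D).coeff i) := by
  classical
  set n := Nat.card (X0 L r) with hn
  choose l hl _ using fun i => exists_LT_of_invariant H D ((chiA D).coeff i)
    (smul_coeff_chiA D i)
  let p : (LT H D)[X] := ∑ i ∈ Finset.range (n + 1), C (l i) * X ^ i
  have hcoeff : ∀ i, p.coeff i = if i < n + 1 then l i else 0 := by
    intro i
    simp only [p, finsetSum_coeff, coeff_C_mul_X_pow]
    rw [Finset.sum_ite_eq]
    simp only [Finset.mem_range]
  have hzero : ∀ i, n < i → l i = 0 := by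
    intro i hi
    have h1 : (chiA D).coeff i = 0 := coeff_eq_zero_of_natDegree_lt (by rw [natDegree_chiA]; exact hi)
    have h2 := hl i
    rw [h1] at h2
    exact Subtype.ext (h2.eq_zero_iff.mpr rfl)
  have hcoeff' : ∀ i, p.coeff i = l i := by
    intro i
    rw [hcoeff]
    split_ifs with h
    · rfl
    · exact (hzero i (by omega)).symm
  have hone : l n = 1 := by
    have h1 : (chiA D).coeff n = 1 := by
      have := (chiA_monic D).coeff_natDegree
      rwa [natDegree_chiA] at this
    have h2 := hl n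
    rw [h1] at h2
    exact Subtype.ext (h2.unique_left CorrL.one)
  have hdeg : p.natDegree = n := by
    apply natDegree_eq_of_le_of_coeff_ne_zero
    · rw [natDegree_le_iff_coeff_eq_zero]
      intro i hi
      rw [hcoeff', hzero i hi]
    · rw [hcoeff', hone]; exact one_ne_zero
  refine ⟨p, ?_, hdeg, ?_, fun i => by rw [hcoeff']; exact hl i⟩
  · rw [Monic, leadingCoeff, hdeg, hcoeff', hone]
  · have h1 : CorrL L M (aeval (D.θF) p) ((chiA D).eval (D.θA)) := by
      rw [eval_eq_sum_range, natDegree_chiA]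
      have h2 : aeval (D.θF) p =
          ∑ i ∈ Finset.range (n + 1), ((l i : LT H D) : FL L) * D.θF ^ i := by
        simp only [p, map_sum, map_mul, aeval_C, map_pow, aeval_X]
        rfl
      rw [h2]
      exact CorrL.sum _ _ _ fun i _ => (hl i).mul ((D.corr).pow i)
    rw [eval_chiA D] at h1
    exact h1.eq_zero_iff.mpr rfl

theorem natDegree_minpoly_le (H : Haupt M r) (D : KLData L M r) :
    (minpoly (LT H D) (D.θF)).natDegree ≤ Nat.card (X0 L r) := by
  obtain ⟨p, hp, hd, h0, -⟩ := exists_chiL H D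
  rw [← hd]
  exact natDegree_le_of_dvd (minpoly.dvd _ _ h0) hp.ne_zero

theorem finrank_LT (H : Haupt M r) (D : KLData L M r) :
    Module.finrank (LT H D) (FL L) = Nat.card (X0 L r) := by
  apply le_antisymm _ (card_X0_le_finrank H D)
  have hfin := finiteDimensional_LT H D
  have hint : IsIntegral (LT H D) (D.θF) := IsIntegral.of_finite _ _
  rw [← IntermediateField.finrank_top', ← adjoin_LT_jM_eq_top H D,
    IntermediateField.adjoin.finrank hint]
  exact natDegree_minpoly_le H D

theorem natDegree_minpoly (H : Haupt M r) (D : KLData L M r) :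
    (minpoly (LT H D) (D.θF)).natDegree = Nat.card (X0 L r) := by
  have hfin := finiteDimensional_LT H D
  have hint : IsIntegral (LT H D) (D.θF) := IsIntegral.of_finite _ _
  rw [← finrank_LT H D, ← IntermediateField.finrank_top', ← adjoin_LT_jM_eq_top H D,
    IntermediateField.adjoin.finrank hint]

theorem exists_basis (H : Haupt M r) (D : KLData L M r) :
    ∃ β : Module.Basis (Fin (Nat.card (X0 L r))) (LT H D) (FL L),
      ∀ i, β i = D.θF ^ (i : ℕ) := by
  have hfin := finiteDimensional_LT H D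
  have : Nonempty (X0 L r) := ⟨⟨_, isX0_one D⟩⟩
  have : Nonempty (Fin (Nat.card (X0 L r))) := ⟨⟨0, Nat.card_pos⟩⟩
  have h1 := linearIndependent_pow (K := LT H D) (D.θF)
  have h2 : LinearIndependent (LT H D)
      (fun i : Fin (Nat.card (X0 L r)) => D.θF ^ (i : ℕ)) :=
    h1.comp (Fin.castLE (natDegree_minpoly H D).ge) (Fin.castLE_injective _)
  refine ⟨basisOfLinearIndependentOfCardEqFinrank h2 (by rw [Fintype.card_fin, finrank_LT]), ?_⟩
  intro i
  rw [coe_basisOfLinearIndependentOfCardEqFinrank]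

end Fermat.Agent.S48.M.KLL
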